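import Mathlib

/-!
# Four dimensional Poisson summation for diagonal Gaussians with periodic weights
-/

set_option autoImplicit false

open Complex Filter Topology Function
open scoped Real

noncomputable section

namespace Fermat.Agent.H16.Theta

/-- Absolutely summable with given sum. -/
structure AS {ι : Type*} (f : ι → ℂ) (a : ℂ) : Prop where
  summable : Summable (fun i ↦ ‖f i‖)
  hasSum : HasSum f a

namespace AS

variable {ι κ : Type*} {f g : ι → ℂ} {a b : ℂ}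

theorem prod {g : κ → ℂ} (hf : AS f a) (hg : AS g b) :
    AS (fun p : ι × κ ↦ f p.1 * g p.2) (a * b) where
  summable := hf.summable.mul_norm hg.summable
  hasSum := hf.hasSum.mul hg.hasSum (summable_mul_of_summable_norm hf.summable hg.summable)

theorem smul (c : ℂ) (hf : AS f a) : AS (fun i ↦ c * f i) (c * a) where
  summable := by simpa only [norm_mul] using hf.summable.mul_left ‖c‖
  hasSum := hf.hasSum.mul_left c

theorem zero : AS (fun _ : ι ↦ (0 : ℂ)) 0 where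
  summable := by simp [summable_zero]
  hasSum := hasSum_zero

theorem add (hf : AS f a) (hg : AS g b) : AS (fun i ↦ f i + g i) (a + b) where
  summable := (hf.summable.add hg.summable).of_nonneg_of_le (fun _ ↦ norm_nonneg _)
    (fun _ ↦ norm_add_le _ _)
  hasSum := hf.hasSum.add hg.hasSum

theorem sum {κ : Type*} (s : Finset κ) {f : κ → ι → ℂ} {a : κ → ℂ} (h : ∀ j ∈ s, AS (f j) (a j)) :
    AS (fun i ↦ ∑ j ∈ s, f j i) (∑ j ∈ s, a j) := by
  classical
  induction s using Finset.induction_on with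
  | empty => simpa using zero
  | insert j s hj ih =>
    simp only [Finset.sum_insert hj]
    exact (h j (Finset.mem_insert_self _ _)).add (ih fun i hi ↦ h i (Finset.mem_insert_of_mem hi))

theorem congr (hf : AS f a) (h : ∀ i, g i = f i) : AS g a := by
  have : g = f := funext h
  rwa [this]

theorem eq (hf : AS f a) (hf' : AS f b) : a = b := hf.hasSum.unique hf'.hasSum

theorem comp_injective {φ : κ → ι} (hφ : Injective φ) (hsupp : ∀ i, i ∉ Set.range φ → f i = 0)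
    (h : AS (fun j ↦ f (φ j)) a) : AS f a where
  summable := by
    have := (hφ.summable_iff (f := fun i ↦ ‖f i‖) (fun i hi ↦ by rw [hsupp i hi, norm_zero])).mp
      h.summable
    exact this
  hasSum := (hφ.hasSum_iff hsupp).mp h.hasSum

end AS

theorem as_jacobi (z : ℂ) {τ : ℂ} (hτ : 0 < τ.im) :
    AS (fun n : ℤ ↦ cexp (2 * π * I * n * z + π * I * n ^ 2 * τ)) (jacobiTheta₂ z τ) where
  summable := ((summable_jacobiTheta₂_term_iff z τ).mpr hτ).norm
  hasSum := hasSum_jacobiTheta₂_term z hτ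

variable {M : ℕ} [NeZero M]

/-- The dual one dimensional series. -/
theorem as_dual (c : ZMod M) {β : ℝ} (hβ : 0 < β) {W : ℂ} (hW : 0 < W.im) :
    AS (fun m : ℤ ↦ ZMod.stdAddChar (c * (m : ZMod M)) * cexp (2 * π * I * W * (β * m ^ 2)))
      (jacobiTheta₂ ((c.val : ℂ) / M) (2 * β * W)) := by
  have h1 : 0 < (2 * (β : ℂ) * W).im := by
    have : (2 * (β : ℂ) * W).im = 2 * β * W.im := by
      simp [Complex.mul_im, Complex.mul_re]
    rw [this]; positivity
  refine (as_jacobi ((c.val : ℂ) / M) h1).congr fun m ↦ ?_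
  have h2 : c * (m : ZMod M) = ((c.val * m : ℤ) : ZMod M) := by
    push_cast; rw [ZMod.natCast_zmod_val]
  rw [h2, ZMod.stdAddChar_coe, ← Complex.exp_add]
  congr 1
  push_cast
  ring

/-- The primal one dimensional series. -/
theorem as_primal (c : ZMod M) {α : ℝ} (hα : 0 < α) {W : ℂ} (hW : 0 < W.im) :
    AS (fun x : ℤ ↦ if (x : ZMod M) = c then cexp (2 * π * I * (-1 / W) * (α * x ^ 2)) else 0)
      (1 / ((((2 * α * M ^ 2 : ℝ) : ℂ)) ^ (1 / 2 : ℂ) * (I / W) ^ (1 / 2 : ℂ)) *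
        jacobiTheta₂ ((c.val : ℂ) / M) (2 * ((1 / (4 * α * M ^ 2) : ℝ) : ℂ) * W)) := by
  have hM : (0 : ℝ) < M := by exact_mod_cast NeZero.pos M
  have hM' : (M : ℂ) ≠ 0 := by exact_mod_cast hM.ne'
  have hW0 : W ≠ 0 := by rintro rfl; simp at hW
  have hα' : (α : ℂ) ≠ 0 := by exact_mod_cast hα.ne'
  -- parameters
  set τ : ℂ := ((2 * α : ℝ) : ℂ) * (-1 / W) with hτdef
  have hW1 : 0 < (-1 / W).im := by
    rw [neg_div, one_div, neg_im, inv_im, neg_div, neg_neg]
    exact div_pos hW (normSq_pos.mpr hW0)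
  have hτ : 0 < τ.im := by
    rw [hτdef, Complex.im_ofReal_mul]; positivity
  have hτM : 0 < ((M : ℂ) ^ 2 * τ).im := by
    have : (M : ℂ) ^ 2 * τ = (((M : ℝ) ^ 2 : ℝ) : ℂ) * τ := by push_cast; rfl
    rw [this, Complex.im_ofReal_mul]; positivity
  have hτ0 : τ ≠ 0 := by rintro h; rw [h] at hτ; simp at hτ
  set cc : ℂ := (c.val : ℂ) with hcc
  -- reindex the residue class
  have hinj : Injective (fun n : ℤ ↦ (c.val : ℤ) + M * n) := by
    intro a b hab
    have : (M : ℤ) * a = M * b := by simpa using hab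
    exact mul_left_cancel₀ (by exact_mod_cast (NeZero.ne M)) this
  apply AS.comp_injective hinj
  · intro x hx
    rw [if_neg]
    intro h
    apply hx
    have h1 : ((x - c.val : ℤ) : ZMod M) = 0 := by
      push_cast; rw [ZMod.natCast_zmod_val, h, sub_self]
    obtain ⟨n, hn⟩ := (ZMod.intCast_zmod_eq_zero_iff_dvd _ _).mp h1
    exact ⟨n, by simp only; omega⟩
  · have h1 := (as_jacobi (cc * M * τ) hτM).smul (cexp (π * I * τ * cc ^ 2))
    have h2 : cexp (π * I * τ * cc ^ 2) * jacobiTheta₂ (cc * M * τ) ((M : ℂ) ^ 2 * τ) =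
      (1 / ((((2 * α * M ^ 2 : ℝ) : ℂ)) ^ (1 / 2 : ℂ) * (I / W) ^ (1 / 2 : ℂ)) *
        jacobiTheta₂ (cc / M) (2 * ((1 / (4 * α * M ^ 2) : ℝ) : ℂ) * W)) := by
      rw [jacobiTheta₂_functional_equation]
      have e1 : cc * M * τ / ((M : ℂ) ^ 2 * τ) = cc / M := by field_simp
      have e2 : -1 / ((M : ℂ) ^ 2 * τ) = 2 * ((1 / (4 * α * M ^ 2) : ℝ) : ℂ) * W := by
        rw [hτdef]; push_cast; field_simp; ring
      have e3 : -I * ((M : ℂ) ^ 2 * τ) = ((2 * α * M ^ 2 : ℝ) : ℂ) * (I / W) := by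
        rw [hτdef]; push_cast; field_simp
      have e4 : -π * I * (cc * M * τ) ^ 2 / ((M : ℂ) ^ 2 * τ) = -(π * I * τ * cc ^ 2) := by
        field_simp
      rw [e1, e2, e3, e4]
      have e5 : (((2 * α * M ^ 2 : ℝ) : ℂ) * (I / W)) ^ (1 / 2 : ℂ) =
          (((2 * α * M ^ 2 : ℝ) : ℂ)) ^ (1 / 2 : ℂ) * (I / W) ^ (1 / 2 : ℂ) := by
        have hr : 0 < 2 * α * (M : ℝ) ^ 2 := by positivity
        have hz : I / W ≠ 0 := div_ne_zero I_ne_zero hW0
        have hr' : ((2 * α * M ^ 2 : ℝ) : ℂ) ≠ 0 := by exact_mod_cast hr.ne'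
        rw [cpow_def_of_ne_zero (mul_ne_zero hr' hz), cpow_def_of_ne_zero hr',
          cpow_def_of_ne_zero hz, log_ofReal_mul hr hz, ← ofReal_log hr.le, add_mul, Complex.exp_add]
      rw [e5, Complex.exp_neg]
      have := Complex.exp_ne_zero (π * I * τ * cc ^ 2)
      field_simp
    rw [h2] at h1
    refine h1.congr fun n ↦ ?_
    have h3 : (((c.val : ℤ) + M * n : ℤ) : ZMod M) = c := by
      push_cast; rw [ZMod.natCast_zmod_val]; simp
    rw [if_pos h3, ← Complex.exp_add]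
    congr 1
    rw [hτdef, hcc]
    push_cast
    ring

/-! ### Four dimensions -/

/-- Four dimensional integral vectors. -/
abbrev V := ℤ × ℤ × ℤ × ℤ

/-- Four dimensional vectors mod `M`. -/
abbrev VM (M : ℕ) := ZMod M × ZMod M × ZMod M × ZMod M

/-- Reduction mod `M`. -/
def red (M : ℕ) (x : V) : VM M := (x.1, x.2.1, x.2.2.1, x.2.2.2)

/-- The standard pairing. -/
def dot {R : Type*} [CommRing R] (x y : R × R × R × R) : R :=
  x.1 * y.1 + x.2.1 * y.2.1 + x.2.2.1 * y.2.2.1 + x.2.2.2 * y.2.2.2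

/-- Diagonal quadratic form with real coefficients. -/
def dq (α : ℝ × ℝ × ℝ × ℝ) (x : V) : ℂ :=
  α.1 * (x.1 : ℂ) ^ 2 + α.2.1 * (x.2.1 : ℂ) ^ 2 + α.2.2.1 * (x.2.2.1 : ℂ) ^ 2 +
    α.2.2.2 * (x.2.2.2 : ℂ) ^ 2

/-- Finite Fourier transform. -/
def hat {M : ℕ} [NeZero M] (Φ : VM M → ℂ) (m : V) : ℂ :=
  ∑ c : VM M, Φ c * ZMod.stdAddChar (dot c (red M m))

/-- The dual coefficient. -/
def dualCoeff (M : ℕ) (a : ℝ) : ℝ := 1 / (4 * a * M ^ 2)

/-- The dual coefficients. -/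
def dualCoeffs (M : ℕ) (α : ℝ × ℝ × ℝ × ℝ) : ℝ × ℝ × ℝ × ℝ :=
  (dualCoeff M α.1, dualCoeff M α.2.1, dualCoeff M α.2.2.1, dualCoeff M α.2.2.2)

/-- The constant in one dimension -/
def sconst (M : ℕ) (a : ℝ) : ℂ := (((2 * a * M ^ 2 : ℝ) : ℂ)) ^ (1 / 2 : ℂ)

/-- The constant in the Poisson formula. -/
def pconst (M : ℕ) (α : ℝ × ℝ × ℝ × ℝ) : ℂ :=
  - (sconst M α.1 * sconst M α.2.1 * sconst M α.2.2.1 * sconst M α.2.2.2)⁻¹

theorem I_div_cpow {W : ℂ} (hW : 0 < W.im) : ((I / W) ^ (1 / 2 : ℂ)) ^ 4 = - (W ^ 2)⁻¹ := by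
  have hW0 : W ≠ 0 := by rintro rfl; simp at hW
  have h1 : ((I / W) ^ (1 / 2 : ℂ)) ^ 2 = I / W := by
    rw [← Complex.cpow_nat_mul]; simp
  calc ((I / W) ^ (1 / 2 : ℂ)) ^ 4 = (((I / W) ^ (1 / 2 : ℂ)) ^ 2) ^ 2 := by ring
    _ = (I / W) ^ 2 := by rw [h1]
    _ = - (W ^ 2)⁻¹ := by rw [div_pow, I_sq]; field_simp

theorem poisson4 {α : ℝ × ℝ × ℝ × ℝ} (h1 : 0 < α.1) (h2 : 0 < α.2.1) (h3 : 0 < α.2.2.1)
    (h4 : 0 < α.2.2.2) (Φ : VM M → ℂ) {W : ℂ} (hW : 0 < W.im) :
    ∃ S : ℂ,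
      AS (fun x : V ↦ Φ (red M x) * cexp (2 * π * I * (-1 / W) * dq α x))
        (pconst M α * W ^ 2 * S) ∧
      AS (fun m : V ↦ hat Φ m * cexp (2 * π * I * W * dq (dualCoeffs M α) m)) S := by
  have hM : (0 : ℝ) < M := by exact_mod_cast NeZero.pos M
  have hd : ∀ {a : ℝ}, 0 < a → 0 < dualCoeff M a := fun ha ↦ by
    rw [dualCoeff]; positivity
  set J : ℝ → ZMod M → ℂ := fun a c ↦
    jacobiTheta₂ ((c.val : ℂ) / M) (2 * ((dualCoeff M a : ℝ) : ℂ) * W) with hJ
  refine ⟨∑ c : VM M, Φ c * (J α.1 c.1 * (J α.2.1 c.2.1 * (J α.2.2.1 c.2.2.1 *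
    J α.2.2.2 c.2.2.2))), ?_, ?_⟩
  · have key : ∀ c : VM M, AS (fun x : V ↦ Φ c * (if red M x = c then
        cexp (2 * π * I * (-1 / W) * dq α x) else 0))
        (pconst M α * W ^ 2 * (Φ c * (J α.1 c.1 * (J α.2.1 c.2.1 * (J α.2.2.1 c.2.2.1 *
    J α.2.2.2 c.2.2.2))))) := by
      intro c
      have e := ((as_primal c.1 h1 hW).prod ((as_primal c.2.1 h2 hW).prod
        ((as_primal c.2.2.1 h3 hW).prod (as_primal c.2.2.2 h4 hW)))).smul (Φ c)
      have e2 : Φ c * (1 / (sconst M α.1 * (I / W) ^ (1 / 2 : ℂ)) * J α.1 c.1 *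
          (1 / (sconst M α.2.1 * (I / W) ^ (1 / 2 : ℂ)) * J α.2.1 c.2.1 *
          (1 / (sconst M α.2.2.1 * (I / W) ^ (1 / 2 : ℂ)) * J α.2.2.1 c.2.2.1 *
          (1 / (sconst M α.2.2.2 * (I / W) ^ (1 / 2 : ℂ)) * J α.2.2.2 c.2.2.2)))) =
          (pconst M α * W ^ 2 * (Φ c * (J α.1 c.1 * (J α.2.1 c.2.1 * (J α.2.2.1 c.2.2.1 *
            J α.2.2.2 c.2.2.2))))) := by
        have hW0 : W ≠ 0 := by rintro rfl; simp at hW
        have e3 := I_div_cpow hW
        rw [pconst]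
        generalize (I / W) ^ (1 / 2 : ℂ) = u at e3 ⊢
        have hu4 : u ^ 4 * W ^ 2 = -1 := by rw [e3]; field_simp
        have hu : u ≠ 0 := by
          rintro rfl
          simp at hu4
        have e4 : (u ^ 4)⁻¹ = - W ^ 2 := by
          rw [inv_eq_iff_eq_inv, e3, inv_neg]
        calc _ = (u ^ 4)⁻¹ * (sconst M α.1 * sconst M α.2.1 * sconst M α.2.2.1 *
              sconst M α.2.2.2)⁻¹ * (Φ c * (J α.1 c.1 * (J α.2.1 c.2.1 * (J α.2.2.1 c.2.2.1 *
            J α.2.2.2 c.2.2.2)))) := by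
              simp only [one_div, mul_inv]; ring
          _ = _ := by rw [e4]; ring
      rw [← e2]
      refine e.congr fun x ↦ ?_
      by_cases hx : red M x = c
      · subst hx
        simp only [red, if_true]
        rw [← Complex.exp_add, ← Complex.exp_add, ← Complex.exp_add]
        congr 2
        simp only [dq]
        ring
      · rw [if_neg hx]
        have : ¬ (((x.1 : ZMod M) = c.1) ∧ ((x.2.1 : ZMod M) = c.2.1) ∧
            ((x.2.2.1 : ZMod M) = c.2.2.1) ∧ ((x.2.2.2 : ZMod M) = c.2.2.2)) := by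
          rintro ⟨a1, a2, a3, a4⟩
          exact hx (by simp [red, a1, a2, a3, a4])
        by_cases a1 : (x.1 : ZMod M) = c.1
        · by_cases a2 : (x.2.1 : ZMod M) = c.2.1
          · by_cases a3 : (x.2.2.1 : ZMod M) = c.2.2.1
            · by_cases a4 : (x.2.2.2 : ZMod M) = c.2.2.2
              · exact absurd ⟨a1, a2, a3, a4⟩ this
              · simp [a4]
            · simp [a3]
          · simp [a2]
        · simp [a1]
    have e := AS.sum Finset.univ (fun c _ ↦ key c)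
    rw [← Finset.mul_sum] at e
    refine e.congr fun x ↦ ?_
    simp
  · have key : ∀ c : VM M, AS (fun m : V ↦ Φ c * (ZMod.stdAddChar (dot c (red M m)) *
        cexp (2 * π * I * W * dq (dualCoeffs M α) m)))
        (Φ c * (J α.1 c.1 * (J α.2.1 c.2.1 * (J α.2.2.1 c.2.2.1 *
    J α.2.2.2 c.2.2.2)))) := by
      intro c
      have e := ((as_dual c.1 (hd h1) hW).prod ((as_dual c.2.1 (hd h2) hW).prod
        ((as_dual c.2.2.1 (hd h3) hW).prod (as_dual c.2.2.2 (hd h4) hW)))).smul (Φ c)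
      refine e.congr fun m ↦ ?_
      congr 1
      have e1 : ZMod.stdAddChar (dot c (red M m)) = ZMod.stdAddChar (c.1 * (m.1 : ZMod M)) *
        ZMod.stdAddChar (c.2.1 * (m.2.1 : ZMod M)) * ZMod.stdAddChar (c.2.2.1 * (m.2.2.1 : ZMod M)) *
        ZMod.stdAddChar (c.2.2.2 * (m.2.2.2 : ZMod M)) := by
        rw [← AddChar.map_add_eq_mul, ← AddChar.map_add_eq_mul, ← AddChar.map_add_eq_mul]
        rfl
      have e2 : cexp (2 * π * I * W * dq (dualCoeffs M α) m) =
        cexp (2 * π * I * W * (dualCoeff M α.1 * m.1 ^ 2)) *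
        cexp (2 * π * I * W * (dualCoeff M α.2.1 * m.2.1 ^ 2)) *
        cexp (2 * π * I * W * (dualCoeff M α.2.2.1 * m.2.2.1 ^ 2)) *
        cexp (2 * π * I * W * (dualCoeff M α.2.2.2 * m.2.2.2 ^ 2)) := by
        rw [← Complex.exp_add, ← Complex.exp_add, ← Complex.exp_add]
        congr 1
        simp only [dq, dualCoeffs]
        ring
      rw [e1, e2]
      ring
    have e := AS.sum Finset.univ (fun c _ ↦ key c)
    refine e.congr fun m ↦ ?_
    rw [hat, Finset.sum_mul]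
    exact Finset.sum_congr rfl fun c _ ↦ by ring

end Fermat.Agent.H16.Theta
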