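import Mathlib
import Fermat.Agent.H16.Theta.Poisson

/-!
# The quaternary lattice
-/

set_option autoImplicit false

open Complex Filter Topology Function
open scoped Real

noncomputable section

namespace Fermat.Agent.H16.Theta

/-- Parameters of the construction. -/
structure Par where
  N : ℕ
  l : ℕ
  s : ℤ
  hN : N.Prime
  h5 : 5 ≤ N
  hl : l % 4 = 3
  hcop : Nat.Coprime N l
  hs : 2 ∣ s
  hdvd : (l : ℤ) ∣ N * s ^ 2 + 1

namespace Par

variable (P : Par)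

theorem l_pos : 0 < P.l := by
  rcases Nat.eq_zero_or_pos P.l with h | h
  · have := P.hl; rw [h] at this; norm_num at this
  · exact h

theorem N_pos : 0 < P.N := P.hN.pos

/-- The modulus. -/
def M : ℕ := 2 * P.l * P.N

instance : NeZero P.M := ⟨by
  rw [M]; exact (Nat.mul_pos (Nat.mul_pos two_pos P.l_pos) P.N_pos).ne'⟩

instance : NeZero P.N := ⟨P.N_pos.ne'⟩

/-- The lattice. -/
def Mem (x : V) : Prop :=
  (2 : ℤ) ∣ x.1 - x.2.1 ∧ (2 : ℤ) ∣ x.2.2.1 - x.2.2.2 ∧ (P.l : ℤ) ∣ x.1 - P.N * P.s * x.2.2.1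

/-- The sublattice. -/
def MemN (x : V) : Prop := P.Mem x ∧ (P.N : ℤ) ∣ x.1 ∧ (P.N : ℤ) ∣ x.2.1

/-- The quadratic form. -/
def qf (x : V) : ℤ :=
  x.1 ^ 2 + P.l * x.2.1 ^ 2 + P.N * x.2.2.1 ^ 2 + P.N * P.l * x.2.2.2 ^ 2

/-- The bilinear form. -/
def bl (x y : V) : ℤ :=
  x.1 * y.1 + P.l * (x.2.1 * y.2.1) + P.N * (x.2.2.1 * y.2.2.1) +
    P.N * P.l * (x.2.2.2 * y.2.2.2)

theorem qf_add (x y : V) : P.qf (x + y) = P.qf x + 2 * P.bl x y + P.qf y := by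
  simp only [qf, bl, Prod.fst_add, Prod.snd_add]; ring

theorem four_dvd : (4 : ℤ) ∣ P.l + 1 := by
  have := P.hl; omega

theorem odd_l : ¬ (2 : ℤ) ∣ P.l := by
  have := P.hl; omega

theorem cop_four_l : IsCoprime (4 : ℤ) (P.l : ℤ) := by
  have h := P.four_dvd
  obtain ⟨k, hk⟩ := h
  exact ⟨k, -1, by linarith⟩

theorem cop_two_l : IsCoprime (2 : ℤ) (P.l : ℤ) := by
  have h := P.four_dvd
  obtain ⟨k, hk⟩ := h
  exact ⟨2 * k, -1, by linarith⟩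

theorem cop_N_l : IsCoprime (P.N : ℤ) (P.l : ℤ) := Nat.isCoprime_iff_coprime.mpr P.hcop

theorem cop_N_two : IsCoprime (P.N : ℤ) (2 : ℤ) := by
  have : Nat.Coprime P.N 2 := by
    rw [Nat.coprime_primes P.hN Nat.prime_two]
    have := P.h5; omega
  exact_mod_cast Nat.isCoprime_iff_coprime.mpr this

theorem cop_2l_N : IsCoprime (2 * P.l : ℤ) (P.N : ℤ) :=
  (IsCoprime.mul_right P.cop_N_two P.cop_N_l).symm

theorem cop_4l_N : IsCoprime (4 * P.l : ℤ) (P.N : ℤ) := by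
  have h1 : IsCoprime (P.N : ℤ) (2 * 2 : ℤ) := IsCoprime.mul_right P.cop_N_two P.cop_N_two
  have h2 : IsCoprime (P.N : ℤ) (4 * P.l : ℤ) := by
    have := IsCoprime.mul_right h1 P.cop_N_l
    norm_num at this
    exact this
  exact h2.symm

variable {P}

theorem Mem.add {x y : V} (hx : P.Mem x) (hy : P.Mem y) : P.Mem (x + y) := by
  obtain ⟨a1, a2, a3⟩ := hx
  obtain ⟨b1, b2, b3⟩ := hy
  refine ⟨?_, ?_, ?_⟩
  · simp only [Prod.fst_add, Prod.snd_add]; omega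
  · simp only [Prod.fst_add, Prod.snd_add]; omega
  · obtain ⟨u, hu⟩ := a3
    obtain ⟨w, hw⟩ := b3
    exact ⟨u + w, by simp only [Prod.fst_add, Prod.snd_add]; linear_combination hu + hw⟩

theorem Mem.zsmul {x : V} (hx : P.Mem x) (k : ℤ) : P.Mem (k • x) := by
  obtain ⟨⟨u1, h1⟩, ⟨u2, h2⟩, ⟨u3, h3⟩⟩ := hx
  refine ⟨⟨k * u1, ?_⟩, ⟨k * u2, ?_⟩, ⟨k * u3, ?_⟩⟩
  · simp only [Prod.smul_fst, Prod.smul_snd, smul_eq_mul]; linear_combination k * h1
  · simp only [Prod.smul_fst, Prod.smul_snd, smul_eq_mul]; linear_combination k * h2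
  · simp only [Prod.smul_fst, Prod.smul_snd, smul_eq_mul]; linear_combination k * h3

theorem Mem.neg {x : V} (hx : P.Mem x) : P.Mem (-x) := by
  have := hx.zsmul (-1)
  simpa using this

theorem mem_add_iff {x y : V} (hy : P.Mem y) : P.Mem (x + y) ↔ P.Mem x := by
  constructor
  · intro h
    have := h.add hy.neg
    simpa using this
  · intro h; exact h.add hy

theorem Mem.two_l_dvd_bl {x y : V} (hx : P.Mem x) (hy : P.Mem y) : (2 * P.l : ℤ) ∣ P.bl x y := by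
  obtain ⟨⟨a1, ha1⟩, ⟨a2, ha2⟩, ⟨a3, ha3⟩⟩ := hx
  obtain ⟨⟨b1, hb1⟩, ⟨b2, hb2⟩, ⟨b3, hb3⟩⟩ := hy
  obtain ⟨k, hk⟩ := P.four_dvd
  obtain ⟨r, hr⟩ := P.hdvd
  apply P.cop_two_l.mul_dvd
  · have e1 : x.1 = x.2.1 + 2 * a1 := by linarith
    have e2 : y.1 = y.2.1 + 2 * b1 := by linarith
    have e3 : x.2.2.1 = x.2.2.2 + 2 * a2 := by linarith
    have e4 : y.2.2.1 = y.2.2.2 + 2 * b2 := by linarith
    refine ⟨2 * k * x.2.1 * y.2.1 + x.2.1 * b1 + a1 * y.2.1 + 2 * a1 * b1 +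
      P.N * (2 * k * x.2.2.2 * y.2.2.2 + x.2.2.2 * b2 + a2 * y.2.2.2 + 2 * a2 * b2), ?_⟩
    have e5 : (P.l : ℤ) = 4 * k - 1 := by linarith
    rw [bl, e1, e2, e3, e4, e5]; ring
  · have e1 : x.1 = P.N * P.s * x.2.2.1 + P.l * a3 := by linarith
    have e2 : y.1 = P.N * P.s * y.2.2.1 + P.l * b3 := by linarith
    refine ⟨P.N * x.2.2.1 * y.2.2.1 * r + P.N * P.s * x.2.2.1 * b3 + a3 * P.N * P.s * y.2.2.1 +
      P.l * a3 * b3 + x.2.1 * y.2.1 + P.N * x.2.2.2 * y.2.2.2, ?_⟩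
    rw [bl, e1, e2]
    linear_combination (P.N * x.2.2.1 * y.2.2.1 : ℤ) * hr

theorem Mem.four_l_dvd_qf {x : V} (hx : P.Mem x) : (4 * P.l : ℤ) ∣ P.qf x := by
  obtain ⟨⟨a1, ha1⟩, ⟨a2, ha2⟩, ⟨a3, ha3⟩⟩ := hx
  obtain ⟨k, hk⟩ := P.four_dvd
  obtain ⟨r, hr⟩ := P.hdvd
  apply P.cop_four_l.mul_dvd
  · have e1 : x.1 = x.2.1 + 2 * a1 := by linarith
    have e3 : x.2.2.1 = x.2.2.2 + 2 * a2 := by linarith
    refine ⟨k * x.2.1 ^ 2 + x.2.1 * a1 + a1 ^ 2 +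
      P.N * (k * x.2.2.2 ^ 2 + x.2.2.2 * a2 + a2 ^ 2), ?_⟩
    have e5 : (P.l : ℤ) = 4 * k - 1 := by linarith
    rw [qf, e1, e3, e5]; ring
  · have e1 : x.1 = P.N * P.s * x.2.2.1 + P.l * a3 := by linarith
    refine ⟨P.N * x.2.2.1 ^ 2 * r + 2 * P.N * P.s * x.2.2.1 * a3 +
      P.l * a3 ^ 2 + x.2.1 ^ 2 + P.N * x.2.2.2 ^ 2, ?_⟩
    rw [qf, e1]
    linear_combination (P.N * x.2.2.1 ^ 2 : ℤ) * hr

/-- Invariance of the exponent under `Λ_N`. -/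
theorem dvd_qf_add_sub {x v : V} (hx : P.Mem x) (hv : P.MemN v) :
    (4 * P.l * P.N : ℤ) ∣ P.qf (x + v) - P.qf x := by
  have h1 : (2 * P.l * P.N : ℤ) ∣ P.bl x v := by
    apply P.cop_2l_N.mul_dvd (hx.two_l_dvd_bl hv.1)
    obtain ⟨a, ha⟩ := hv.2.1
    obtain ⟨b, hb⟩ := hv.2.2
    rw [bl, ha, hb]
    exact ⟨x.1 * a + P.l * (x.2.1 * b) + x.2.2.1 * v.2.2.1 + P.l * (x.2.2.2 * v.2.2.2), by ring⟩
  have h2 : (4 * P.l * P.N : ℤ) ∣ P.qf v := by
    apply P.cop_4l_N.mul_dvd hv.1.four_l_dvd_qf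
    obtain ⟨a, ha⟩ := hv.2.1
    obtain ⟨b, hb⟩ := hv.2.2
    rw [qf, ha, hb]
    exact ⟨P.N * a ^ 2 + P.l * (P.N * b ^ 2) + v.2.2.1 ^ 2 + P.l * v.2.2.2 ^ 2, by ring⟩
  obtain ⟨u, hu⟩ := h1
  obtain ⟨w, hw⟩ := h2
  exact ⟨u + w, by rw [qf_add, hu, hw]; ring⟩

variable (P) in
theorem memN_M_smul (y : V) : P.MemN ((P.M : ℤ) • y) := by
  have hM : (P.M : ℤ) = 2 * P.l * P.N := by rw [M]; push_cast; rfl
  refine ⟨⟨?_, ?_, ?_⟩, ?_, ?_⟩
  · simp only [Prod.smul_fst, Prod.smul_snd, smul_eq_mul, hM]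
    exact ⟨P.l * P.N * (y.1 - y.2.1), by ring⟩
  · simp only [Prod.smul_fst, Prod.smul_snd, smul_eq_mul, hM]
    exact ⟨P.l * P.N * (y.2.2.1 - y.2.2.2), by ring⟩
  · simp only [Prod.smul_fst, Prod.smul_snd, smul_eq_mul, hM]
    exact ⟨2 * P.N * (y.1 - P.N * P.s * y.2.2.1), by ring⟩
  · simp only [Prod.smul_fst, smul_eq_mul, hM]
    exact ⟨2 * P.l * y.1, by ring⟩
  · simp only [Prod.smul_fst, Prod.smul_snd, smul_eq_mul, hM]
    exact ⟨2 * P.l * y.2.1, by ring⟩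

/-- The exponential `e(a qf(x) / (4 l N))`. -/
def ex (P : Par) (t : ℤ) : ℂ := cexp (2 * π * I * (t / (4 * P.l * P.N)))

theorem ex_add (s t : ℤ) : P.ex (s + t) = P.ex s * P.ex t := by
  rw [ex, ex, ex, ← Complex.exp_add]
  congr 1; push_cast; ring

theorem ex_eq_of_dvd {s t : ℤ} (h : (4 * P.l * P.N : ℤ) ∣ s - t) : P.ex s = P.ex t := by
  obtain ⟨k, hk⟩ := h
  have hs : s = t + 4 * P.l * P.N * k := by linarith
  have hl : (P.l : ℂ) ≠ 0 := by exact_mod_cast P.l_pos.ne'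
  have hN : (P.N : ℂ) ≠ 0 := by exact_mod_cast P.N_pos.ne'
  rw [ex, ex, hs]
  rw [show (2 * π * I * ((t + 4 * P.l * P.N * k : ℤ) / (4 * P.l * P.N)) : ℂ) =
    2 * π * I * (t / (4 * P.l * P.N)) + k * (2 * π * I) by push_cast; field_simp]
  rw [Complex.exp_add, Complex.exp_int_mul_two_pi_mul_I, mul_one]

/-- A section of the reduction. -/
def lift {M : ℕ} (c : VM M) : V := (c.1.val, c.2.1.val, c.2.2.1.val, c.2.2.2.val)

theorem red_lift {M : ℕ} [NeZero M] (c : VM M) : red M (lift c) = c := by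
  simp [red, lift]

theorem exists_lift_red {M : ℕ} [NeZero M] (x : V) : ∃ y : V, x = lift (red M x) + (M : ℤ) • y := by
  have key : ∀ a : ℤ, ∃ b : ℤ, a = ((a : ZMod M).val : ℤ) + M * b := fun a ↦ by
    have h1 : ((a - (a : ZMod M).val : ℤ) : ZMod M) = 0 := by
      push_cast; rw [ZMod.natCast_zmod_val, sub_self]
    obtain ⟨n, hn⟩ := (ZMod.intCast_zmod_eq_zero_iff_dvd _ _).mp h1
    exact ⟨n, by linarith⟩
  obtain ⟨b1, h1⟩ := key x.1
  obtain ⟨b2, h2⟩ := key x.2.1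
  obtain ⟨b3, h3⟩ := key x.2.2.1
  obtain ⟨b4, h4⟩ := key x.2.2.2
  refine ⟨(b1, b2, b3, b4), ?_⟩
  ext
  · simpa [lift, red] using h1
  · simpa [lift, red] using h2
  · simpa [lift, red] using h3
  · simpa [lift, red] using h4

open Classical in
/-- The weight function. -/
def Φ (P : Par) (a : ℤ) (c : VM P.M) : ℂ :=
  if P.Mem (lift c) then P.ex (a * P.qf (lift c)) else 0

open Classical in
theorem Φ_red (a : ℤ) (x : V) :
    P.Φ a (red P.M x) = if P.Mem x then P.ex (a * P.qf x) else 0 := by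
  obtain ⟨y, hy⟩ := exists_lift_red (M := P.M) x
  have hyN := P.memN_M_smul y
  rw [Φ]
  by_cases h : P.Mem (lift (red P.M x))
  · have hx : P.Mem x := by rw [hy]; exact h.add hyN.1
    rw [if_pos h, if_pos hx]
    apply ex_eq_of_dvd
    obtain ⟨u, hu⟩ := dvd_qf_add_sub h hyN
    rw [← hy] at hu
    exact ⟨- (a * u), by linear_combination (-a) * hu⟩
  · have hx : ¬ P.Mem x := fun hx ↦ h (by rw [hy] at hx; exact (mem_add_iff hyN.1).mp hx)
    rw [if_neg h, if_neg hx]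

theorem red_add {M : ℕ} (x y : V) : red M (x + y) = red M x + red M y := by
  simp [red]

theorem Φ_red_add_of_memN (a : ℤ) (c : VM P.M) {v : V} (hv : P.MemN v) :
    P.Φ a (c + red P.M v) = P.Φ a c := by
  classical
  conv_lhs => rw [← red_lift c]
  conv_rhs => rw [← red_lift c]
  rw [← red_add, Φ_red, Φ_red]
  by_cases h : P.Mem (lift c)
  · rw [if_pos h, if_pos (h.add hv.1)]
    apply ex_eq_of_dvd
    obtain ⟨u, hu⟩ := dvd_qf_add_sub h hv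
    exact ⟨a * u, by linear_combination a * hu⟩
  · rw [if_neg h, if_neg (fun h' ↦ h ((mem_add_iff hv.1).mp h'))]

theorem dot_add_left {R : Type*} [CommRing R] (x y z : R × R × R × R) :
    dot (x + y) z = dot x z + dot y z := by
  simp only [dot, Prod.fst_add, Prod.snd_add]; ring

theorem hat_eq_mul (a : ℤ) {v : V} (hv : P.MemN v) (m : V) :
    hat (P.Φ a) m = ZMod.stdAddChar (dot (red P.M v) (red P.M m)) * hat (P.Φ a) m := by
  have e := (Equiv.sum_comp (Equiv.addRight (red P.M v))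
    (fun c ↦ P.Φ a c * ZMod.stdAddChar (dot c (red P.M m)))).symm
  rw [hat, Finset.mul_sum]
  refine e.trans (Finset.sum_congr rfl fun c _ ↦ ?_)
  rw [Equiv.coe_addRight, Φ_red_add_of_memN a c hv, dot_add_left, AddChar.map_add_eq_mul]
  ring

theorem dot_red {M : ℕ} (v m : V) : dot (red M v) (red M m) = ((dot v m : ℤ) : ZMod M) := by
  simp [dot, red]

theorem dvd_dot_of_hat_ne_zero (a : ℤ) {m : V} (hm : hat (P.Φ a) m ≠ 0) {v : V}
    (hv : P.MemN v) : (P.M : ℤ) ∣ dot v m := by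
  have h1 := hat_eq_mul a hv m
  have h2 : ZMod.stdAddChar (dot (red P.M v) (red P.M m)) = 1 := by
    have : (1 : ℂ) * hat (P.Φ a) m = ZMod.stdAddChar (dot (red P.M v) (red P.M m)) *
      hat (P.Φ a) m := by rw [one_mul]; exact h1
    exact (mul_right_cancel₀ hm this).symm
  have h3 : dot (red P.M v) (red P.M m) = 0 := by
    apply ZMod.injective_stdAddChar
    rw [h2, AddChar.map_zero_eq_one]
  rw [dot_red] at h3
  exact (ZMod.intCast_zmod_eq_zero_iff_dvd _ _).mp h3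

/-- Scaling by the diagonal coefficients. -/
def scale (P : Par) (h : V) : V := (h.1, P.l * h.2.1, P.N * h.2.2.1, P.N * P.l * h.2.2.2)

theorem scale_injective : Injective P.scale := by
  intro x y h
  have hl : (P.l : ℤ) ≠ 0 := by exact_mod_cast P.l_pos.ne'
  have hN : (P.N : ℤ) ≠ 0 := by exact_mod_cast P.N_pos.ne'
  simp only [scale, Prod.mk.injEq] at h
  obtain ⟨h1, h2, h3, h4⟩ := h
  ext
  · exact h1
  · exact mul_left_cancel₀ hl h2
  · exact mul_left_cancel₀ hN h3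
  · exact mul_left_cancel₀ (mul_ne_zero hN hl) h4

/-- The Fourier transform of `Φ` is supported on the (scaled) lattice. -/
theorem exists_of_hat_ne_zero (a : ℤ) {m : V} (hm : hat (P.Φ a) m ≠ 0) :
    ∃ h : V, P.Mem h ∧ m = P.scale h := by
  have hM : (P.M : ℤ) = 2 * P.l * P.N := by rw [M]; push_cast; rfl
  have hl : (P.l : ℤ) ≠ 0 := by exact_mod_cast P.l_pos.ne'
  have hN : (P.N : ℤ) ≠ 0 := by exact_mod_cast P.N_pos.ne'
  obtain ⟨s2, hs2⟩ := P.hs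
  obtain ⟨k, hk⟩ := P.four_dvd
  obtain ⟨r, hr⟩ := P.hdvd
  have hl4 : (P.l : ℤ) = 4 * k - 1 := by linarith
  -- test vectors
  have v1 : P.MemN ((0, 2 * P.N, 0, 0) : V) := by
    refine ⟨⟨⟨-P.N, by ring⟩, ⟨0, by ring⟩, ⟨0, by ring⟩⟩, ⟨0, by ring⟩, ⟨2, by ring⟩⟩
  have v2 : P.MemN ((P.l * P.N, P.N, 0, 0) : V) := by
    refine ⟨⟨⟨(2 * k - 1) * P.N, by simp only [hl4]; ring⟩, ⟨0, by ring⟩,
      ⟨P.N, by ring⟩⟩, ⟨P.l, by ring⟩, ⟨1, by ring⟩⟩
  have v3 : P.MemN ((0, 0, 0, 2) : V) := by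
    refine ⟨⟨⟨0, by ring⟩, ⟨-1, by ring⟩, ⟨0, by ring⟩⟩, ⟨0, by ring⟩, ⟨0, by ring⟩⟩
  have v4 : P.MemN ((P.N * P.s, 0, 1, 1) : V) := by
    refine ⟨⟨⟨P.N * s2, by simp only [hs2]; ring⟩, ⟨0, by ring⟩, ⟨0, by ring⟩⟩,
      ⟨P.s, by ring⟩, ⟨0, by ring⟩⟩
  obtain ⟨m1, m2, m3, m4⟩ := m
  obtain ⟨c1, e1⟩ := dvd_dot_of_hat_ne_zero a hm v1
  obtain ⟨c2, e2⟩ := dvd_dot_of_hat_ne_zero a hm v2
  obtain ⟨c3, e3⟩ := dvd_dot_of_hat_ne_zero a hm v3
  obtain ⟨c4, e4⟩ := dvd_dot_of_hat_ne_zero a hm v4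
  simp only [dot, hM] at e1 e2 e3 e4
  have f1 : m2 = P.l * c1 := by
    have : (2 * P.N : ℤ) * m2 = 2 * P.N * (P.l * c1) := by linarith
    exact mul_left_cancel₀ (mul_ne_zero two_ne_zero hN) this
  have f3 : m4 = P.N * P.l * c3 := by
    have : (2 : ℤ) * m4 = 2 * (P.N * P.l * c3) := by linarith
    exact mul_left_cancel₀ two_ne_zero this
  have f2 : m1 + c1 = 2 * c2 := by
    have : (P.l * P.N : ℤ) * (m1 + c1) = P.l * P.N * (2 * c2) := by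
      rw [f1] at e2; linarith
    exact mul_left_cancel₀ (mul_ne_zero hl hN) this
  -- m3 = N * h3
  set h3 : ℤ := 2 * P.l * c4 - P.s * m1 - P.l * c3 with hh3
  have f4 : m3 = P.N * h3 := by rw [f3] at e4; rw [hh3]; linarith
  refine ⟨(m1, c1, h3, c3), ⟨⟨m1 - c2, ?_⟩, ?_, ?_⟩, ?_⟩
  · simp only; linarith
  · simp only
    refine ⟨P.l * c4 - s2 * m1 - 2 * k * c3, ?_⟩
    rw [hh3, hs2, hl4]; ring
  · simp only
    refine ⟨m1 * r - P.N * P.s * (2 * c4 - c3), ?_⟩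
    rw [hh3]
    linear_combination (m1 : ℤ) * hr
  · simp only [scale, Prod.mk.injEq]
    exact ⟨trivial, f1, f4, f3⟩

theorem dot_scale (x h : V) : dot x (P.scale h) = P.bl x h := by
  simp only [dot, scale, bl]; ring

theorem stdAddChar_dot_scale (x h : V) :
    ZMod.stdAddChar (dot (red P.M x) (red P.M (P.scale h))) = P.ex (2 * P.bl x h) := by
  rw [dot_red, ZMod.stdAddChar_coe, dot_scale, ex]
  congr 1
  have hl : (P.l : ℂ) ≠ 0 := by exact_mod_cast P.l_pos.ne'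
  have hN : (P.N : ℂ) ≠ 0 := by exact_mod_cast P.N_pos.ne'
  rw [M]
  push_cast
  field_simp
  ring

/-- Completing the square. -/
theorem hat_scale {a d : ℤ} (had : (P.N : ℤ) ∣ a * d - 1) {h : V} (hh : P.Mem h) :
    hat (P.Φ a) (P.scale h) = P.ex (- (d * P.qf h)) * hat (P.Φ a) 0 := by
  classical
  have h0 : hat (P.Φ a) 0 = ∑ c : VM P.M, P.Φ a c := by
    rw [hat]
    refine Finset.sum_congr rfl fun c _ ↦ ?_
    have : dot c (red P.M 0) = 0 := by simp [dot, red]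
    rw [this, AddChar.map_zero_eq_one, mul_one]
  rw [h0, hat, ← Equiv.sum_comp (Equiv.addRight (red P.M (d • h))) (P.Φ a), Finset.mul_sum]
  refine Finset.sum_congr rfl fun c _ ↦ ?_
  rw [Equiv.coe_addRight]
  obtain ⟨x, rfl⟩ : ∃ x : V, c = red P.M x := ⟨lift c, (red_lift c).symm⟩
  beta_reduce
  rw [← red_add, Φ_red, Φ_red, stdAddChar_dot_scale]
  by_cases hx : P.Mem x
  · rw [if_pos hx, if_pos (hx.add (hh.zsmul d)), ← ex_add, ← ex_add]
    apply ex_eq_of_dvd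
    obtain ⟨n, hn⟩ := had
    obtain ⟨u, hu⟩ := hx.two_l_dvd_bl hh
    obtain ⟨w, hw⟩ := hh.four_l_dvd_qf
    have e1 : P.bl x (d • h) = d * P.bl x h := by
      simp only [bl, Prod.smul_fst, Prod.smul_snd, smul_eq_mul]; ring
    have e2 : P.qf (d • h) = d ^ 2 * P.qf h := by
      simp only [qf, Prod.smul_fst, Prod.smul_snd, smul_eq_mul]; ring
    rw [qf_add, e1, e2, hu, hw]
    refine ⟨- (n * u + d * n * w), ?_⟩
    linear_combination (-(4 * P.l * u + 4 * P.l * d * w) : ℤ) * hn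
  · rw [if_neg hx, if_neg (fun h' ↦ hx ((mem_add_iff (hh.zsmul d)).mp h')), zero_mul, mul_zero]

end Par

end Fermat.Agent.H16.Theta
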