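import Mathlib
import Fermat.Agent.H16.Theta.Lattice

/-!
# The functional equation of the theta function
-/

set_option autoImplicit false

open Complex Filter Topology Function
open scoped Real

noncomputable section

namespace Fermat.Agent.H16.Theta

theorem AS.of_comp {ι κ : Type*} {f : ι → ℂ} {φ : κ → ι} {a : ℂ} (hφ : Injective φ)
    (hsupp : ∀ i, i ∉ Set.range φ → f i = 0) (h : AS f a) : AS (fun j ↦ f (φ j)) a where
  summable := by
    have := (hφ.summable_iff (f := fun i ↦ ‖f i‖) (fun i hi ↦ by rw [hsupp i hi, norm_zero])).mpr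
      h.summable
    exact this
  hasSum := (hφ.hasSum_iff hsupp).mpr h.hasSum

namespace Par

variable (P : Par)

/-- The coefficients of the form. -/
def α : ℝ × ℝ × ℝ × ℝ := (1 / (4 * P.l), 1 / 4, P.N / (4 * P.l), P.N / 4)

theorem α_pos1 : 0 < P.α.1 := by
  have : (0 : ℝ) < P.l := by exact_mod_cast P.l_pos
  simp only [α]; positivity

theorem α_pos2 : 0 < P.α.2.1 := by
  simp only [α]; norm_num

theorem α_pos3 : 0 < P.α.2.2.1 := by
  have : (0 : ℝ) < P.l := by exact_mod_cast P.l_pos
  have : (0 : ℝ) < P.N := by exact_mod_cast P.N_pos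
  simp only [α]; positivity

theorem α_pos4 : 0 < P.α.2.2.2 := by
  have : (0 : ℝ) < P.N := by exact_mod_cast P.N_pos
  simp only [α]; positivity

theorem dq_α (x : V) : dq P.α x = (P.qf x : ℂ) / (4 * P.l) := by
  have hl : (P.l : ℂ) ≠ 0 := by exact_mod_cast P.l_pos.ne'
  simp only [dq, α, qf]
  push_cast
  field_simp

theorem dq_dual_scale (h : V) :
    dq (dualCoeffs P.M P.α) (P.scale h) = (P.qf h : ℂ) / (4 * P.l * P.N ^ 2) := by
  have hl : (P.l : ℂ) ≠ 0 := by exact_mod_cast P.l_pos.ne'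
  have hN : (P.N : ℂ) ≠ 0 := by exact_mod_cast P.N_pos.ne'
  simp only [dq, α, qf, dualCoeffs, dualCoeff, scale, M]
  push_cast
  field_simp
  ring

open Classical in
/-- The terms of the theta series. -/
def term (z : ℂ) (x : V) : ℂ := if P.Mem x then cexp (2 * π * I * z * (P.qf x / (4 * P.l))) else 0

/-- The theta series. -/
def theta (z : ℂ) : ℂ := ∑' x, P.term z x

/-- The Fourier transform at zero. -/
def G (a : ℤ) : ℂ := hat (P.Φ a) 0

theorem G_eq (a : ℤ) : P.G a = ∑ c : VM P.M, P.Φ a c := by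
  rw [G, hat]
  refine Finset.sum_congr rfl fun c _ ↦ ?_
  have : dot c (red P.M 0) = 0 := by simp [dot, red]
  rw [this, AddChar.map_zero_eq_one, mul_one]

theorem neg_inv_im {W : ℂ} (hW : 0 < W.im) : 0 < (-1 / W).im := by
  have hW0 : W ≠ 0 := by rintro rfl; simp at hW
  rw [neg_div, one_div, neg_im, inv_im, neg_div, neg_neg]
  exact div_pos hW (normSq_pos.mpr hW0)

theorem as_term {z : ℂ} (hz : 0 < z.im) : AS (P.term z) (P.theta z) := by
  classical
  have hz0 : z ≠ 0 := by rintro rfl; simp at hz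
  obtain ⟨S, h1, -⟩ := poisson4 P.α_pos1 P.α_pos2 P.α_pos3 P.α_pos4 (P.Φ 0) (neg_inv_im hz)
  have h2 : AS (P.term z) (pconst P.M P.α * (-1 / z) ^ 2 * S) := by
    refine h1.congr fun x ↦ ?_
    rw [Φ_red, term]
    by_cases h : P.Mem x
    · rw [if_pos h, if_pos h, zero_mul]
      have : P.ex 0 = 1 := by simp [ex]
      rw [this, one_mul, dq_α]
      congr 2
      field_simp
    · rw [if_neg h, if_neg h, zero_mul]
  have h3 : P.theta z = pconst P.M P.α * (-1 / z) ^ 2 * S := h2.hasSum.tsum_eq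
  rw [h3]
  exact h2

/-- The transformation formula for `γ = (a, b; N, d)`. -/
theorem theta_transform {a b d : ℤ} (had : a * d - b * P.N = 1) {z : ℂ} (hz : 0 < z.im) :
    P.theta ((a * z + b) / (P.N * z + d)) =
      pconst P.M P.α * P.N ^ 2 * P.G a * (P.N * z + d) ^ 2 * P.theta z := by
  classical
  have hl : (P.l : ℂ) ≠ 0 := by exact_mod_cast P.l_pos.ne'
  have hN : (P.N : ℂ) ≠ 0 := by exact_mod_cast P.N_pos.ne'
  have hN' : (0 : ℝ) < P.N := by exact_mod_cast P.N_pos
  set W : ℂ := P.N * (P.N * z + d) with hWdef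
  have hW : 0 < W.im := by
    have : W.im = P.N * (P.N * z.im) := by
      rw [hWdef]
      simp [Complex.mul_im, Complex.mul_re]
    rw [this]; positivity
  have hW0 : W ≠ 0 := by rintro h; rw [h] at hW; simp at hW
  have hD : (P.N * z + d : ℂ) ≠ 0 := fun h ↦ hW0 (by rw [hWdef, h, mul_zero])
  have hγ : ((a * z + b) / (P.N * z + d) : ℂ) = a / P.N + (-1 / W) := by
    have had' : (a * d - b * P.N : ℂ) = 1 := by exact_mod_cast had
    rw [hWdef, div_add_div _ _ hN (mul_ne_zero hN hD), div_eq_div_iff hD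
      (mul_ne_zero hN (mul_ne_zero hN hD))]
    linear_combination (-(P.N : ℂ) * (P.N * z + d)) * had'
  obtain ⟨S, h1, h2⟩ := poisson4 P.α_pos1 P.α_pos2 P.α_pos3 P.α_pos4 (P.Φ a) hW
  -- first: identify the primal sum
  have hd : (P.N : ℤ) ∣ a * d - 1 := ⟨b, by linarith⟩
  have him : 0 < ((a * z + b) / (P.N * z + d) : ℂ).im := by
    rw [hγ, Complex.add_im]
    have : ((a : ℂ) / P.N).im = 0 := by
      have : ((a : ℂ) / P.N) = ((a / P.N : ℝ) : ℂ) := by push_cast; rfl
      rw [this, Complex.ofReal_im]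
    rw [this, zero_add]
    exact neg_inv_im hW
  have e1 : P.theta ((a * z + b) / (P.N * z + d)) = pconst P.M P.α * W ^ 2 * S := by
    refine (P.as_term him).eq (h1.congr fun x ↦ ?_)
    rw [Φ_red, term]
    by_cases h : P.Mem x
    · rw [if_pos h, if_pos h, dq_α, ex, ← Complex.exp_add, hγ]
      congr 1
      push_cast
      field_simp
    · rw [if_neg h, if_neg h, zero_mul]
  -- second: identify the dual sum
  have e2 : S = P.G a * P.theta z := by
    have h3 : AS (fun h : V ↦ hat (P.Φ a) (P.scale h) *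
        cexp (2 * π * I * W * dq (dualCoeffs P.M P.α) (P.scale h))) S := by
      refine AS.of_comp scale_injective (fun m hm ↦ ?_) h2
      by_contra h
      have h' : hat (P.Φ a) m ≠ 0 := fun h0 ↦ h (by rw [h0, zero_mul])
      obtain ⟨h, -, hh⟩ := exists_of_hat_ne_zero a h'
      exact hm ⟨h, hh.symm⟩
    refine h3.eq (((P.as_term hz).smul (P.G a)).congr fun h ↦ ?_)
    rw [term]
    by_cases hh : P.Mem h
    · rw [if_pos hh, hat_scale hd hh, dq_dual_scale, G, mul_comm (P.ex _), mul_assoc, ex,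
        ← Complex.exp_add]
      congr 2
      rw [hWdef]
      push_cast
      field_simp
      ring
    · rw [if_neg hh, mul_zero]
      by_contra hc
      have h' : hat (P.Φ a) (P.scale h) ≠ 0 := fun h0 ↦ hc (by rw [h0, zero_mul])
      obtain ⟨h1, hm, hh1⟩ := exists_of_hat_ne_zero a h'
      exact hh (by rw [scale_injective hh1]; exact hm)
  rw [e1, e2, hWdef]
  ring

end Par

end Fermat.Agent.H16.Theta
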