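import Mathlib
import Fermat.Agent.H16.Theta.Functional

/-!
# The Gauss sum `G(a)` does not depend on `a`
-/

set_option autoImplicit false

open Complex Filter Topology Function
open scoped Real

noncomputable section

namespace Fermat.Agent.H16.Theta

namespace Par

variable (P : Par)

instance : Fact P.N.Prime := ⟨P.hN⟩

/-- The two variable sum. -/
def HS (t : ZMod P.N) : ℂ :=
  ∑ w : ZMod P.N × ZMod P.N, ZMod.stdAddChar (t * (w.1 ^ 2 + (P.l : ZMod P.N) * w.2 ^ 2))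

theorem l_ne_zero : (P.l : ZMod P.N) ≠ 0 := by
  intro h
  have h1 : P.N ∣ P.l := (ZMod.natCast_eq_zero_iff _ _).mp h
  have h2 := Nat.eq_one_of_dvd_coprimes P.hcop dvd_rfl h1
  have := P.h5
  omega

open Polynomial in
theorem exists_norm_eq (a : ZMod P.N) :
    ∃ p q : ZMod P.N, p ^ 2 + (P.l : ZMod P.N) * q ^ 2 = a := by
  have h1 : Polynomial.degree (X ^ 2 - C a : (ZMod P.N)[X]) = 2 :=
    Polynomial.degree_X_pow_sub_C (by norm_num) _
  have h2 : Polynomial.degree (C (P.l : ZMod P.N) * X ^ 2 : (ZMod P.N)[X]) = 2 :=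
    Polynomial.degree_C_mul_X_pow 2 P.l_ne_zero
  have h3 : Fintype.card (ZMod P.N) % 2 = 1 := by
    rw [ZMod.card]
    rcases P.hN.eq_two_or_odd with h | h
    · have := P.h5; omega
    · exact h
  obtain ⟨p, q, h⟩ := FiniteField.exists_root_sum_quadratic h1 h2 h3
  refine ⟨p, q, ?_⟩
  simp only [eval_sub, eval_pow, eval_X, eval_C, eval_mul] at h
  linear_combination h

theorem HS_mul (t : ZMod P.N) {a : ZMod P.N} (ha : a ≠ 0) : P.HS (a * t) = P.HS t := by
  obtain ⟨p, q, hpq⟩ := P.exists_norm_eq a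
  have hinj : Injective (fun w : ZMod P.N × ZMod P.N ↦
      ((p * w.1 - (P.l : ZMod P.N) * q * w.2, q * w.1 + p * w.2) : ZMod P.N × ZMod P.N)) := by
    intro w w' h
    simp only [Prod.mk.injEq] at h
    obtain ⟨h1, h2⟩ := h
    ext
    · apply mul_left_cancel₀ ha
      rw [← hpq]
      linear_combination p * h1 + (P.l : ZMod P.N) * q * h2
    · apply mul_left_cancel₀ ha
      rw [← hpq]
      linear_combination -q * h1 + p * h2
  have hbij := Finite.injective_iff_bijective.mp hinj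
  symm
  rw [HS, HS]
  rw [← (Equiv.ofBijective _ hbij).sum_comp]
  refine Finset.sum_congr rfl fun w _ ↦ ?_
  rw [Equiv.ofBijective_apply]
  congr 1
  simp only
  rw [← hpq]
  ring

/-- inverse of `4 l` mod `N`. -/
theorem exists_inv : ∃ k : ℤ, (P.N : ℤ) ∣ 4 * P.l * k - 1 := by
  obtain ⟨u, v, h⟩ := P.cop_4l_N
  exact ⟨u, -v, by linarith⟩

theorem ex_mul_qf {k : ℤ} (hk : (P.N : ℤ) ∣ 4 * P.l * k - 1) (a : ℤ) {x : V} (hx : P.Mem x) :
    P.ex (a * P.qf x) = ZMod.stdAddChar ((a : ZMod P.N) * (k : ZMod P.N) *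
      ((x.1 : ZMod P.N) ^ 2 + (P.l : ZMod P.N) * (x.2.1 : ZMod P.N) ^ 2)) := by
  obtain ⟨w, hw⟩ := hx.four_l_dvd_qf
  have h1 : P.ex (a * P.qf x) = ZMod.stdAddChar ((a * w : ℤ) : ZMod P.N) := by
    rw [ZMod.stdAddChar_coe, ex, hw]
    congr 1
    have hl : (P.l : ℂ) ≠ 0 := by exact_mod_cast P.l_pos.ne'
    have hN : (P.N : ℂ) ≠ 0 := by exact_mod_cast P.N_pos.ne'
    push_cast
    field_simp
  rw [h1]
  congr 1
  have hk' : (4 * P.l * k : ZMod P.N) = 1 := by
    have := (ZMod.intCast_zmod_eq_zero_iff_dvd _ _).mpr hk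
    push_cast at this
    linear_combination this
  have hw' : ((x.1 : ZMod P.N) ^ 2 + (P.l : ZMod P.N) * (x.2.1 : ZMod P.N) ^ 2) =
      4 * P.l * w := by
    have h2 : ((P.qf x : ℤ) : ZMod P.N) = ((4 * P.l * w : ℤ) : ZMod P.N) := by rw [hw]
    rw [qf] at h2
    push_cast at h2
    have h3 : (P.N : ZMod P.N) = 0 := CharP.cast_eq_zero _ _
    rw [h3] at h2
    linear_combination h2
  rw [hw']
  push_cast
  linear_combination (-(a : ZMod P.N) * w) * hk'

/-- A shift vector. -/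
def shift (k : ℤ) (w : ZMod P.N × ZMod P.N) : V :=
  (4 * P.l * k * (w.1.val : ℤ), 4 * P.l * k * (w.2.val : ℤ), 0, 0)

theorem mem_shift (k : ℤ) (w : ZMod P.N × ZMod P.N) : P.Mem (P.shift k w) := by
  refine ⟨⟨2 * P.l * k * ((w.1.val : ℤ) - (w.2.val : ℤ)), ?_⟩, ⟨0, ?_⟩,
    ⟨4 * k * (w.1.val : ℤ), ?_⟩⟩
  · simp only [shift]; ring
  · simp only [shift]; ring
  · simp only [shift]; ring

open Classical in
/-- The averaging formula -/
theorem G_avg {k : ℤ} (hk : (P.N : ℤ) ∣ 4 * P.l * k - 1) (a : ℤ) :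
    (P.N : ℂ) ^ 2 * P.G a =
      ((Finset.univ.filter fun c : VM P.M ↦ P.Mem (lift c)).card : ℂ) * P.HS (a * k) := by
  have hk' : (4 * P.l * k : ZMod P.N) = 1 := by
    have := (ZMod.intCast_zmod_eq_zero_iff_dvd _ _).mpr hk
    push_cast at this
    linear_combination this
  have h1 : ∀ w : ZMod P.N × ZMod P.N, P.G a = ∑ c : VM P.M, P.Φ a (c + red P.M (P.shift k w)) := by
    intro w
    rw [G_eq, ← Equiv.sum_comp (Equiv.addRight (red P.M (P.shift k w))) (P.Φ a)]
    rfl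
  have h2 : (P.N : ℂ) ^ 2 * P.G a = ∑ w : ZMod P.N × ZMod P.N, P.G a := by
    rw [Finset.sum_const, Finset.card_univ, Fintype.card_prod, ZMod.card, nsmul_eq_mul]
    push_cast
    ring
  rw [h2, Finset.sum_congr rfl fun w _ ↦ h1 w, Finset.sum_comm]
  have h3 : ∀ c : VM P.M, ∑ w : ZMod P.N × ZMod P.N, P.Φ a (c + red P.M (P.shift k w)) =
      if P.Mem (lift c) then P.HS (a * k) else 0 := by
    intro c
    have h4 : ∀ w : ZMod P.N × ZMod P.N, P.Φ a (c + red P.M (P.shift k w)) =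
        if P.Mem (lift c) then ZMod.stdAddChar (((a : ZMod P.N) * (k : ZMod P.N)) *
          ((((lift c).1 : ZMod P.N) + w.1) ^ 2 +
            (P.l : ZMod P.N) * (((lift c).2.1 : ZMod P.N) + w.2) ^ 2)) else 0 := by
      intro w
      obtain ⟨x, hx⟩ : ∃ x : V, x = lift c := ⟨_, rfl⟩
      have hc : c = red P.M x := by rw [hx]; exact (red_lift c).symm
      rw [← hx, hc, ← red_add, Φ_red]
      by_cases h : P.Mem x
      · rw [if_pos h, if_pos (h.add (P.mem_shift k w)),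
          P.ex_mul_qf hk a (h.add (P.mem_shift k w))]
        congr 1
        simp only [shift, Prod.fst_add, Prod.snd_add]
        push_cast
        rw [ZMod.natCast_zmod_val, ZMod.natCast_zmod_val, hk', one_mul, one_mul]
      · rw [if_neg h, if_neg (fun h' ↦ h ((mem_add_iff (P.mem_shift k w)).mp h'))]
    rw [Finset.sum_congr rfl fun w _ ↦ h4 w]
    by_cases h : P.Mem (lift c)
    · simp only [if_pos h]
      exact Equiv.sum_comp (Equiv.addLeft
        ((((lift c).1 : ZMod P.N), ((lift c).2.1 : ZMod P.N)) : ZMod P.N × ZMod P.N))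
        (fun w ↦ ZMod.stdAddChar (((a : ZMod P.N) * (k : ZMod P.N)) *
          (w.1 ^ 2 + (P.l : ZMod P.N) * w.2 ^ 2)))
    · simp only [if_neg h, Finset.sum_const_zero]
  rw [Finset.sum_congr rfl fun c _ ↦ h3 c, ← Finset.sum_filter, Finset.sum_const, nsmul_eq_mul]

theorem G_indep {a : ℤ} (ha : IsCoprime (P.N : ℤ) a) : P.G a = P.G 1 := by
  classical
  obtain ⟨k, hk⟩ := P.exists_inv
  have hN : (P.N : ℂ) ≠ 0 := by exact_mod_cast P.N_pos.ne'
  have ha' : (a : ZMod P.N) ≠ 0 := by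
    intro h
    have h1 := (ZMod.intCast_zmod_eq_zero_iff_dvd _ _).mp h
    have h2 := ha.isUnit_of_dvd' dvd_rfl h1
    have h3 := Int.isUnit_iff.mp h2
    have := P.h5
    omega
  apply mul_left_cancel₀ (pow_ne_zero 2 hN)
  rw [G_avg P hk, G_avg P hk, HS_mul P _ ha', Int.cast_one, one_mul]

end Par

end Fermat.Agent.H16.Theta
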