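import Mathlib
import Fermat.Agent.H16.Theta.Gauss

/-!
# Modularity of the theta function
-/

set_option autoImplicit false

open Complex Filter Topology Function
open UpperHalfPlane hiding I
open scoped Real MatrixGroups ModularForm

noncomputable section

namespace Fermat.Agent.H16.Theta

/-! ### Exponential series -/

section Exp

variable {ι : Type*} (c : ι → ℂ) (r : ι → ℝ)

/-- A generic term. -/
def gterm (z : ℂ) (i : ι) : ℂ := c i * cexp (2 * π * I * z * r i)

theorem norm_gterm (z : ℂ) (i : ι) : ‖gterm c r z i‖ = ‖c i‖ * Real.exp (- (2 * π * r i * z.im)) := by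
  rw [gterm, norm_mul, Complex.norm_exp]
  congr 2
  simp [Complex.mul_re, Complex.mul_im]
  ring

variable {c r}

theorem norm_gterm_le (hr : ∀ i, 0 ≤ r i) {z w : ℂ} (h : w.im ≤ z.im) (i : ι) :
    ‖gterm c r z i‖ ≤ ‖gterm c r w i‖ := by
  rw [norm_gterm, norm_gterm]
  refine mul_le_mul_of_nonneg_left (Real.exp_le_exp.mpr ?_) (norm_nonneg _)
  have : 0 ≤ 2 * π * r i := by have := hr i; positivity
  nlinarith

theorem differentiableOn_tsum_gterm (hr : ∀ i, 0 ≤ r i)
    (hs : ∀ z : ℂ, 0 < z.im → Summable fun i ↦ ‖gterm c r z i‖) :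
    DifferentiableOn ℂ (fun z ↦ ∑' i, gterm c r z i) {z | 0 < z.im} := by
  intro z hz
  have hz' : 0 < z.im := hz
  set U : Set ℂ := {w | z.im / 2 < w.im} with hU
  have hUo : IsOpen U := isOpen_lt continuous_const Complex.continuous_im
  have hzU : z ∈ U := by simp only [hU, Set.mem_ofPred_eq]; linarith
  have h1 : DifferentiableOn ℂ (fun z ↦ ∑' i, gterm c r z i) U := by
    refine differentiableOn_tsum_of_summable_norm (hs (((z.im / 2 : ℝ) : ℂ) * I) ?_) (fun i ↦ ?_)
      hUo (fun i w hw ↦ ?_)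
    · simp; exact hz'
    · unfold gterm
      fun_prop
    · refine norm_gterm_le hr ?_ i
      simp only [hU, Set.mem_ofPred_eq] at hw
      simpa using hw.le
  exact (h1.differentiableAt (hUo.mem_nhds hzU)).differentiableWithinAt

theorem norm_tsum_gterm_le (hr : ∀ i, 0 ≤ r i)
    (hs : ∀ z : ℂ, 0 < z.im → Summable fun i ↦ ‖gterm c r z i‖) {z : ℂ} (hz : 1 ≤ z.im) :
    ‖∑' i, gterm c r z i‖ ≤ ∑' i, ‖gterm c r I i‖ := by
  refine (norm_tsum_le_tsum_norm (hs z (by linarith))).trans ?_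
  refine Summable.tsum_le_tsum (fun i ↦ norm_gterm_le hr (by simpa using hz) i)
    (hs z (by linarith)) (hs I (by simp))

theorem isBoundedAtImInfty_of_tsum (hr : ∀ i, 0 ≤ r i)
    (hs : ∀ z : ℂ, 0 < z.im → Summable fun i ↦ ‖gterm c r z i‖) :
    IsBoundedAtImInfty (fun τ : ℍ ↦ ∑' i, gterm c r τ i) := by
  rw [UpperHalfPlane.isBoundedAtImInfty_iff]
  exact ⟨∑' i, ‖gterm c r I i‖, 1, fun τ hτ ↦ norm_tsum_gterm_le hr hs hτ⟩

end Exp

namespace Par

variable (P : Par)

theorem theta_periodic {z : ℂ} : P.theta (z + 1) = P.theta z := by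
  classical
  rw [theta, theta]
  refine tsum_congr fun x ↦ ?_
  rw [term, term]
  by_cases h : P.Mem x
  · rw [if_pos h, if_pos h]
    obtain ⟨w, hw⟩ := h.four_l_dvd_qf
    have hl : (P.l : ℂ) ≠ 0 := by exact_mod_cast P.l_pos.ne'
    have e1 : (P.qf x / (4 * P.l) : ℂ) = w := by
      rw [hw]; push_cast; field_simp
    rw [e1, mul_add, mul_one, add_mul, Complex.exp_add]
    have : cexp (2 * π * I * w) = 1 := by
      rw [mul_comm]; exact Complex.exp_int_mul_two_pi_mul_I w
    rw [this, mul_one]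
  · rw [if_neg h, if_neg h]

theorem qf_nonneg (x : V) : 0 ≤ P.qf x := by
  rw [qf]; positivity

theorem theta_I_ne_zero : P.theta I ≠ 0 := by
  classical
  have h1 := (P.as_term (z := I) (by simp)).hasSum
  have h2 := Complex.hasSum_re h1
  have h3 : ∀ x, P.term I x = ((if P.Mem x then Real.exp (-(2 * π) * (P.qf x / (4 * P.l))) else 0 :
      ℝ) : ℂ) := by
    intro x
    rw [term]
    split_ifs
    · rw [Complex.ofReal_exp]
      congr 1
      push_cast
      linear_combination (2 * π * (P.qf x / (4 * P.l)) : ℂ) * I_sq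
    · rfl
  have h4 : ∀ x, 0 ≤ (P.term I x).re := by
    intro x
    rw [h3, Complex.ofReal_re]
    split_ifs
    · exact (Real.exp_pos _).le
    · exact le_rfl
  have h5 := le_hasSum h2 0 (fun x _ ↦ h4 x)
  have h6 : P.Mem 0 := ⟨⟨0, by simp⟩, ⟨0, by simp⟩, ⟨0, by simp⟩⟩
  rw [h3, if_pos h6, Complex.ofReal_re] at h5
  intro h
  rw [h] at h5
  simp only [Complex.zero_re] at h5
  exact absurd h5 (not_le.mpr (Real.exp_pos _))

/-- The constant. -/
def kap : ℂ := pconst P.M P.α * P.N ^ 2 * P.G 1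

theorem theta_transform1 {a b d : ℤ} (had : a * d - b * P.N = 1) {z : ℂ} (hz : 0 < z.im) :
    P.theta ((a * z + b) / (P.N * z + d)) = P.kap * (P.N * z + d) ^ 2 * P.theta z := by
  rw [P.theta_transform had hz, P.G_indep (a := a) ⟨-b, d, by linarith⟩, kap]

theorem two_dvd : ∃ m : ℤ, (P.N : ℤ) = 2 * m + 1 := by
  rcases P.hN.eq_two_or_odd' with h | h
  · have := P.h5; omega
  · obtain ⟨m, hm⟩ := h
    exact ⟨m, by exact_mod_cast hm⟩

theorem denom_ne {d : ℤ} {z : ℂ} (hz : 0 < z.im) : (P.N * z + d : ℂ) ≠ 0 := by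
  intro h
  have h1 := congrArg Complex.im h
  have hN' : (0 : ℝ) < P.N := by exact_mod_cast P.N_pos
  simp at h1
  rcases h1 with h1 | h1
  · rw [h1] at hN'; simp at hN'
  · exact hz.ne' h1

theorem im_pos_of {a b d : ℤ} (had : a * d - b * P.N = 1) {z : ℂ} (hz : 0 < z.im) :
    0 < ((a * z + b) / (P.N * z + d) : ℂ).im := by
  let γ : SL(2, ℤ) := ⟨!![a, b; P.N, d], by rw [Matrix.det_fin_two_of]; linarith⟩
  have h := (γ • (⟨z, hz⟩ : ℍ)).im_pos
  have e := UpperHalfPlane.specialLinearGroup_apply γ (⟨z, hz⟩ : ℍ)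
  have e2 : ((γ • (⟨z, hz⟩ : ℍ) : ℍ) : ℂ) = (a * z + b) / (P.N * z + d) := by
    rw [e]
    simp [γ]
  rw [← e2]
  exact h

theorem kap_eq_one : P.kap = 1 := by
  obtain ⟨m, hm⟩ := P.two_dvd
  have hI : 0 < (I : ℂ).im := by simp
  have hmC : (P.N : ℂ) = 2 * m + 1 := by exact_mod_cast hm
  have g1 : (m + 1) * 2 - 1 * (P.N : ℤ) = 1 := by linarith
  have g2 : (-1) * (-1) - 0 * (P.N : ℤ) = 1 := by ring
  have g3 : m * (-2) - (-1) * (P.N : ℤ) = 1 := by linarith
  -- composition at a point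
  have comp : ∀ z : ℂ, 0 < z.im → P.kap * (P.kap * P.theta z) = P.kap * P.theta z := by
    intro z hz
    have i2 := P.im_pos_of g2 hz
    have t2 := P.theta_transform1 g2 hz
    have t1 := P.theta_transform1 g1 i2
    have t3 := P.theta_transform1 g3 hz
    have d2 := P.denom_ne (d := -1) hz
    have d3 := P.denom_ne (d := -2) hz
    push_cast at t1 t2 t3 d2 d3 i2
    set w : ℂ := (-1 * z + 0) / (P.N * z + -1) with hw
    have e1 : P.N * w + 2 = (P.N * z + -2) / (P.N * z + -1) := by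
      rw [hw, eq_div_iff d2, add_mul, mul_assoc, div_mul_cancel₀ _ d2]; ring
    have e2 : ((m + 1) * w + 1) / (P.N * w + 2) = (m * z + -1) / (P.N * z + -2) := by
      have e3 : (m + 1) * w + 1 = (m * z + -1) / (P.N * z + -1) := by
        rw [hw, eq_div_iff d2, add_mul, mul_assoc, div_mul_cancel₀ _ d2, hmC]; ring
      rw [e1, e3, div_div_div_cancel_right₀ d2]
    rw [e2, t3, e1, t2] at t1
    have e4 : P.kap * ((P.N * z + -2) / (P.N * z + -1)) ^ 2 *
        (P.kap * (P.N * z + -1) ^ 2 * P.theta z) =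
        (P.N * z + -2) ^ 2 * (P.kap * (P.kap * P.theta z)) := by
      field_simp
    rw [e4] at t1
    have e5 : P.kap * (P.N * z + -2) ^ 2 * P.theta z = (P.N * z + -2) ^ 2 * (P.kap * P.theta z) := by
      ring
    rw [e5] at t1
    exact (mul_left_cancel₀ (pow_ne_zero 2 d3) t1).symm
  have hk : P.kap ≠ 0 := by
    intro hk
    -- choose z with γ₁ z = I
    have g4 : (-1) * (-1) - 0 * (P.N : ℤ) = 1 := by ring
    -- z = (0 - 1·... ) use γ₂ which is an involution up to sign: γ₂ (γ₂' I) = I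
    have g5 : (1 : ℤ) * 1 - 0 * (P.N : ℤ) = 1 := by ring
    -- inverse of (1,0;N,1) is (1,0;-N,1) ~ (-1,0;N,-1)
    have i4 := P.im_pos_of g4 hI
    have t5 := P.theta_transform1 g5 i4
    rw [hk, zero_mul, zero_mul] at t5
    have d4 := P.denom_ne (d := -1) hI
    push_cast at t5 d4
    have e6 : (1 * ((-1 * I + 0) / (P.N * I + -1)) + 0) /
        (P.N * ((-1 * I + 0) / (P.N * I + -1)) + 1) = I := by
      have e7 : (P.N * ((-1 * I + 0) / (P.N * I + -1)) + 1 : ℂ) = -1 / (P.N * I + -1) := by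
        rw [eq_div_iff d4, add_mul, mul_assoc, div_mul_cancel₀ _ d4]; ring
      rw [e7, one_mul, add_zero, div_div_div_cancel_right₀ d4]
      ring
    rw [e6] at t5
    exact P.theta_I_ne_zero t5
  have h1 := comp I hI
  have h2 := mul_left_cancel₀ hk h1
  have h3 : P.kap * P.theta I = 1 * P.theta I := by rw [h2, one_mul]
  exact mul_right_cancel₀ P.theta_I_ne_zero h3

/-- The theta function on the upper half plane. -/
def th (τ : ℍ) : ℂ := P.theta τ

theorem th_slash {γ : SL(2, ℤ)} (hγ : γ 1 0 = P.N) : P.th ∣[(2 : ℤ)] γ = P.th := by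
  ext τ
  rw [ModularForm.slash_action_eq'_iff]
  have hdet : γ 0 0 * γ 1 1 - γ 0 1 * P.N = 1 := by
    have := γ.det_coe
    rw [Matrix.det_fin_two, hγ] at this
    exact this
  have h := P.theta_transform1 hdet τ.im_pos
  have e := UpperHalfPlane.specialLinearGroup_apply γ τ
  rw [kap_eq_one, one_mul] at h
  have e2 : (((γ • τ : ℍ)) : ℂ) = ((γ 0 0 : ℤ) * (τ : ℂ) + (γ 0 1 : ℤ)) /
      (P.N * (τ : ℂ) + (γ 1 1 : ℤ)) := by
    rw [e]
    simp [hγ]
  rw [th, th, e2, hγ]
  rw [h]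
  norm_cast

theorem th_slash_T : P.th ∣[(2 : ℤ)] ModularGroup.T = P.th := by
  ext τ
  rw [ModularForm.slash_action_eq'_iff]
  have : ((ModularGroup.T • τ : ℍ) : ℂ) = τ + 1 := by
    rw [UpperHalfPlane.modular_T_smul]
    simp [add_comm]
  rw [th, th, this, theta_periodic]
  simp [ModularGroup.T]

end Par

end Fermat.Agent.H16.Theta
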