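import Mathlib
import Fermat.Agent.H16.Theta.Modular

/-!
# The theta function as a modular form
-/

set_option autoImplicit false

open Complex Filter Topology Function
open UpperHalfPlane hiding I
open scoped Real MatrixGroups ModularForm Manifold

noncomputable section

namespace Fermat.Agent.H16.Theta

/-- Generation of `Γ₀(N)` for `N` prime. -/
theorem gamma0_le {N : ℕ} (hN : N.Prime) (H : Subgroup SL(2, ℤ)) (hT : ModularGroup.T ∈ H)
    (hneg : (-1 : SL(2, ℤ)) ∈ H) (h1 : ∀ γ : SL(2, ℤ), γ 1 0 = N → γ ∈ H) :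
    CongruenceSubgroup.Gamma0 N ≤ H := by
  have hnegmem : ∀ γ : SL(2, ℤ), -γ ∈ H → γ ∈ H := fun γ h ↦ by
    have := H.mul_mem hneg h
    simpa using this
  have key : ∀ n : ℕ, ∀ (γ : SL(2, ℤ)) (c : ℤ), γ 1 0 = N * c → c.natAbs = n → γ ∈ H := by
    intro n
    induction n using Nat.strong_induction_on with
    | _ n ih =>
      -- reduce to c ≥ 0
      suffices hpos : ∀ (γ : SL(2, ℤ)) (c : ℤ), γ 1 0 = N * c → c.natAbs = n → 0 ≤ c → γ ∈ H by
        intro γ c hc hn
        rcases le_total 0 c with h | h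
        · exact hpos γ c hc hn h
        · refine hnegmem γ (hpos (-γ) (-c) ?_ ?_ (by omega))
          · simp [hc]
          · rw [Int.natAbs_neg]; exact hn
      intro γ c hc hn hc0
      have hdet : γ 0 0 * γ 1 1 - γ 0 1 * γ 1 0 = 1 := by
        have := γ.det_coe
        rwa [Matrix.det_fin_two] at this
      rcases Nat.lt_or_ge n 2 with hn2 | hn2
      · interval_cases n
        · -- c = 0
          have hc' : c = 0 := by omega
          rw [hc', mul_zero] at hc
          rw [hc, mul_zero, sub_zero] at hdet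
          rcases Int.eq_one_or_neg_one_of_mul_eq_one' hdet with ⟨h00, h11⟩ | ⟨h00, h11⟩
          · have : γ = ModularGroup.T ^ (γ 0 1) := by
              ext i j
              rw [ModularGroup.coe_T_zpow]
              fin_cases i <;> fin_cases j <;> simp [hc, h00, h11]
            rw [this]
            exact H.zpow_mem hT _
          · apply hnegmem
            have : -γ = ModularGroup.T ^ (-γ 0 1) := by
              ext i j
              rw [ModularGroup.coe_T_zpow]
              fin_cases i <;> fin_cases j <;> simp [hc, h00, h11]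
            rw [this]
            exact H.zpow_mem hT _
        · have hc' : c = 1 := by omega
          exact h1 γ (by rw [hc, hc', mul_one])
      · -- induction step
        have hcpos : 2 ≤ c := by omega
        set d := γ 1 1 with hd
        have hNz : (N : ℤ) ≠ 0 := by exact_mod_cast hN.ne_zero
        have hNp : Prime (N : ℤ) := Nat.prime_iff_prime_int.mp hN
        have hr0 : d % c ≠ 0 := by
          intro h
          obtain ⟨e, he⟩ := Int.dvd_of_emod_eq_zero h
          have : c ∣ 1 := ⟨γ 0 0 * e - γ 0 1 * N, by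
            linear_combination -hdet + γ 0 0 * he - γ 0 1 * hc⟩
          have := Int.le_of_dvd one_pos this
          omega
        have hr1 := Int.emod_nonneg d (show c ≠ 0 by omega)
        have hr2 := Int.emod_lt_of_pos d (show 0 < c by omega)
        have hr3 : d % c + c * (d / c) = d := Int.emod_add_mul_ediv d c
        obtain ⟨x, hx, hxN⟩ : ∃ x : ℤ, (c * x + d).natAbs < c.natAbs ∧ ¬ (N : ℤ) ∣ x := by
          by_cases hx0 : (N : ℤ) ∣ -(d / c)
          · refine ⟨-(d / c) - 1, ?_, ?_⟩
            · have : c * (-(d / c) - 1) + d = d % c - c := by linarith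
              rw [this]
              omega
            · intro h
              have h3 : (N : ℤ) ∣ 1 := by
                have := dvd_sub hx0 h
                simpa using this
              exact hNp.not_isUnit (isUnit_of_dvd_one h3)
          · refine ⟨-(d / c), ?_, hx0⟩
            have : c * (-(d / c)) + d = d % c := by linarith
            rw [this]
            omega
        have hcop : IsCoprime x (N : ℤ) := by
          rw [isCoprime_comm]
          exact (Irreducible.coprime_iff_not_dvd hNp.irreducible).mpr hxN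
        obtain ⟨w, y, hwy⟩ := hcop
        let δ : SL(2, ℤ) := ⟨!![x, -y; N, w], by rw [Matrix.det_fin_two_of]; linarith⟩
        have hδ : δ ∈ H := h1 δ (by simp [δ])
        have hprod : γ * δ ∈ H := by
          refine ih (c * x + d).natAbs (by omega) (γ * δ) (c * x + d) ?_ rfl
          have : (γ * δ) 1 0 = γ 1 0 * x + γ 1 1 * N := by
            rw [Matrix.SpecialLinearGroup.coe_mul, Matrix.mul_apply, Fin.sum_univ_two]
            simp [δ]
          rw [this, hc, ← hd]
          ring
        have := H.mul_mem hprod (H.inv_mem hδ)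
        simpa using this
  intro γ hγ
  rw [CongruenceSubgroup.Gamma0_mem] at hγ
  obtain ⟨c, hc⟩ := (ZMod.intCast_zmod_eq_zero_iff_dvd _ _).mp hγ
  exact key _ γ c hc rfl

/-- The subgroup of matrices fixing a function. -/
def fixer (f : ℍ → ℂ) : Subgroup SL(2, ℤ) where
  carrier := {γ | f ∣[(2 : ℤ)] γ = f}
  mul_mem' := by
    intro a b ha hb
    change f ∣[(2 : ℤ)] (a * b) = f
    rw [SlashAction.slash_mul, show f ∣[(2 : ℤ)] a = f from ha, show f ∣[(2 : ℤ)] b = f from hb]
  one_mem' := SlashAction.slash_one _ _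
  inv_mem' := by
    intro a ha
    change f ∣[(2 : ℤ)] a⁻¹ = f
    conv_lhs => rw [← show f ∣[(2 : ℤ)] a = f from ha]
    rw [← SlashAction.slash_mul, mul_inv_cancel, SlashAction.slash_one]

theorem neg_one_mem_fixer (f : ℍ → ℂ) : (-1 : SL(2, ℤ)) ∈ fixer f := by
  change f ∣[(2 : ℤ)] (-1 : SL(2, ℤ)) = f
  ext τ
  rw [ModularForm.slash_action_eq'_iff]
  rw [ModularGroup.SL_neg_smul, one_smul]
  simp

namespace Par

variable (P : Par)

theorem th_invariant {γ : SL(2, ℤ)} (hγ : γ ∈ CongruenceSubgroup.Gamma0 P.N) :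
    P.th ∣[(2 : ℤ)] γ = P.th :=
  gamma0_le P.hN (fixer P.th) P.th_slash_T (neg_one_mem_fixer _) (fun _ h ↦ P.th_slash h) hγ

open Classical in
theorem term_eq_gterm (z : ℂ) (x : V) :
    P.term z x = gterm (fun x ↦ if P.Mem x then 1 else 0) (fun x ↦ (P.qf x : ℝ) / (4 * P.l)) z x := by
  rw [term, gterm]
  by_cases h : P.Mem x
  · rw [if_pos h, if_pos h, one_mul]; push_cast; rfl
  · rw [if_neg h, if_neg h, zero_mul]

theorem r_nonneg (x : V) : 0 ≤ (P.qf x : ℝ) / (4 * P.l) := by
  have : (0 : ℝ) ≤ P.qf x := by exact_mod_cast P.qf_nonneg x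
  positivity

open Classical in
theorem summable_gterm (z : ℂ) (hz : 0 < z.im) : Summable fun x : V ↦
    ‖gterm (fun x ↦ if P.Mem x then (1 : ℂ) else 0) (fun x ↦ (P.qf x : ℝ) / (4 * P.l)) z x‖ := by
  have := (P.as_term hz).summable
  simpa only [term_eq_gterm] using this

theorem th_mdiff : MDiff P.th := by
  classical
  rw [UpperHalfPlane.mdifferentiable_iff]
  have h := differentiableOn_tsum_gterm P.r_nonneg P.summable_gterm
  refine h.congr fun z hz ↦ ?_
  have hz' : 0 < z.im := hz
  rw [Function.comp_apply, UpperHalfPlane.ofComplex_apply_of_im_pos hz', th, theta]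
  exact tsum_congr fun x ↦ P.term_eq_gterm z x

theorem th_bdd : IsBoundedAtImInfty P.th := by
  classical
  have h := isBoundedAtImInfty_of_tsum P.r_nonneg P.summable_gterm
  have e : P.th = fun τ : ℍ ↦ ∑' x, gterm (fun x ↦ if P.Mem x then (1 : ℂ) else 0)
      (fun x ↦ (P.qf x : ℝ) / (4 * P.l)) τ x := by
    ext τ
    rw [th, theta]
    exact tsum_congr fun x ↦ P.term_eq_gterm τ x
  rw [e]
  exact h

/-- A real version of `dq`. -/
def dqR (α : ℝ × ℝ × ℝ × ℝ) (x : V) : ℝ :=
  α.1 * (x.1 : ℝ) ^ 2 + α.2.1 * (x.2.1 : ℝ) ^ 2 + α.2.2.1 * (x.2.2.1 : ℝ) ^ 2 +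
    α.2.2.2 * (x.2.2.2 : ℝ) ^ 2

theorem dq_eq (α : ℝ × ℝ × ℝ × ℝ) (x : V) : dq α x = (dqR α x : ℂ) := by
  simp only [dq, dqR]; push_cast; rfl

theorem th_S_bdd : IsBoundedAtImInfty (P.th ∣[(2 : ℤ)] ModularGroup.S) := by
  classical
  set c : V → ℂ := fun m ↦ hat (P.Φ 0) m with hc
  set r : V → ℝ := fun m ↦ dqR (dualCoeffs P.M P.α) m with hr
  have hM : (0 : ℝ) < P.M := by exact_mod_cast NeZero.pos P.M
  have hd : ∀ {a : ℝ}, 0 < a → 0 < dualCoeff P.M a := fun ha ↦ by
    rw [dualCoeff]; positivity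
  have hr0 : ∀ m, 0 ≤ r m := by
    intro m
    have h1 := hd P.α_pos1
    have h2 := hd P.α_pos2
    have h3 := hd P.α_pos3
    have h4 := hd P.α_pos4
    simp only [hr, dqR, dualCoeffs]
    positivity
  have key : ∀ z : ℂ, 0 < z.im → ∃ S, AS (gterm c r z) S ∧
      P.theta (-1 / z) = pconst P.M P.α * z ^ 2 * S := by
    intro z hz
    obtain ⟨S, h1, h2⟩ := poisson4 P.α_pos1 P.α_pos2 P.α_pos3 P.α_pos4 (P.Φ 0) hz
    refine ⟨S, h2.congr fun m ↦ ?_, ?_⟩
    · rw [gterm, hc, hr, dq_eq]
    · refine (P.as_term (neg_inv_im hz)).eq (h1.congr fun x ↦ ?_)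
      rw [Φ_red, term]
      by_cases h : P.Mem x
      · rw [if_pos h, if_pos h, zero_mul]
        have : P.ex 0 = 1 := by simp [ex]
        rw [this, one_mul, dq_α]
      · rw [if_neg h, if_neg h, zero_mul]
  have hs : ∀ z : ℂ, 0 < z.im → Summable fun i ↦ ‖gterm c r z i‖ := fun z hz ↦ by
    obtain ⟨S, h1, -⟩ := key z hz
    exact h1.summable
  have h := isBoundedAtImInfty_of_tsum hr0 hs
  have e : (P.th ∣[(2 : ℤ)] ModularGroup.S) =
      fun τ : ℍ ↦ pconst P.M P.α * ∑' i, gterm c r τ i := by
    ext τ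
    obtain ⟨S, h1, h2⟩ := key τ τ.im_pos
    rw [ModularForm.SL_slash_apply, th]
    have e1 : ((ModularGroup.S • τ : ℍ) : ℂ) = -1 / τ := by
      rw [UpperHalfPlane.modular_S_smul]
      simp [neg_div]
    have hτ : (τ : ℂ) ≠ 0 := τ.ne_zero
    rw [e1, h2, h1.hasSum.tsum_eq, ModularGroup.denom_S]
    rw [zpow_neg]
    norm_cast
    field_simp
  rw [e]
  exact (h.const_mul_left _)

end Par

end Fermat.Agent.H16.Theta
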