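import Mathlib
import Fermat.Prelude.Def_FLTPrelim_Modularity
import Fermat.Agent.H16.Theta.Form

/-!
# Existence of an integral form with constant term `1/2`
-/

set_option autoImplicit false

open Complex Filter Topology Function
open UpperHalfPlane hiding I
open scoped Real MatrixGroups ModularForm Manifold

noncomputable section

namespace Fermat.Agent.H16.Theta

namespace Par

variable (P : Par)

theorem th_slash_bdd (γ : SL(2, ℤ)) : IsBoundedAtImInfty (P.th ∣[(2 : ℤ)] γ) := by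
  have hdet : γ 0 0 * γ 1 1 - γ 0 1 * γ 1 0 = 1 := by
    have := γ.det_coe
    rwa [Matrix.det_fin_two] at this
  by_cases h : (P.N : ℤ) ∣ γ 1 0
  · have hγ : γ ∈ CongruenceSubgroup.Gamma0 P.N := by
      rw [CongruenceSubgroup.Gamma0_mem]
      exact (ZMod.intCast_zmod_eq_zero_iff_dvd _ _).mpr h
    rw [P.th_invariant hγ]
    exact P.th_bdd
  · have hNp : Prime (P.N : ℤ) := Nat.prime_iff_prime_int.mp P.hN
    have hcop : IsCoprime (P.N : ℤ) (γ 1 0) :=
      (Irreducible.coprime_iff_not_dvd hNp.irreducible).mpr h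
    obtain ⟨u, v, huv⟩ := hcop
    -- j = v * d
    set j : ℤ := v * γ 1 1 with hj
    set γ' : SL(2, ℤ) := γ * (ModularGroup.T ^ (-j)) * ModularGroup.S⁻¹ with hγ'
    have hmem : γ' ∈ CongruenceSubgroup.Gamma0 P.N := by
      rw [CongruenceSubgroup.Gamma0_mem]
      apply (ZMod.intCast_zmod_eq_zero_iff_dvd _ _).mpr
      have e : γ' 1 0 = γ 1 0 * j - γ 1 1 := by
        rw [hγ', ModularGroup.S_inv]
        simp only [Matrix.SpecialLinearGroup.coe_mul, ModularGroup.coe_T_zpow,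
          Matrix.SpecialLinearGroup.coe_neg, ModularGroup.coe_S]
        simp [Matrix.mul_apply, Fin.sum_univ_two]
        try ring
      rw [e, hj]
      exact ⟨-(u * γ 1 1), by linear_combination (γ 1 1) * huv⟩
    have hdecomp : γ = γ' * ModularGroup.S * ModularGroup.T ^ j := by
      rw [hγ']
      group
    rw [hdecomp, SlashAction.slash_mul, SlashAction.slash_mul, P.th_invariant hmem]
    rw [ModularForm.SL_slash]
    refine IsBoundedAtImInfty.slash _ ?_ P.th_S_bdd
    simp [ModularGroup.coe_T_zpow, -map_zpow]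

/-- The modular form. -/
def form : ModularForm (CongruenceSubgroup.Gamma0 P.N) 2 where
  toFun := P.th
  slash_action_eq' := by
    rintro _ ⟨g, hg, rfl⟩
    exact P.th_invariant hg
  holo' := P.th_mdiff
  bdd_at_cusps' := by
    intro c hc
    rw [Subgroup.IsArithmetic.isCusp_iff_isCusp_SL2Z] at hc
    rw [OnePoint.isBoundedAt_iff_forall_SL2Z hc]
    intro g _
    exact P.th_slash_bdd g

theorem coe_form : ⇑P.form = P.th := rfl

/-! ### Coefficients -/

open Classical in
theorem finite_fiber (n : ℕ) : {x : V | P.Mem x ∧ P.qf x = 4 * P.l * n}.Finite := by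
  set B : ℤ := 4 * P.l * n with hB
  refine Set.Finite.subset (Set.Finite.prod (Set.finite_Icc (-B) B) (Set.Finite.prod
    (Set.finite_Icc (-B) B) (Set.Finite.prod (Set.finite_Icc (-B) B) (Set.finite_Icc (-B) B)))) ?_
  rintro x ⟨-, hx⟩
  have hl : (1 : ℤ) ≤ P.l := by exact_mod_cast P.l_pos
  have hN : (1 : ℤ) ≤ P.N := by exact_mod_cast P.N_pos
  have hNl : (1 : ℤ) ≤ P.N * P.l := by nlinarith
  have key : ∀ (c y : ℤ), 1 ≤ c → c * y ^ 2 ≤ B → y ∈ Set.Icc (-B) B := by
    intro c y hc h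
    have h1 : y ^ 2 ≤ B := by nlinarith [sq_nonneg y]
    have h2 : |y| ≤ y ^ 2 := by
      rcases eq_or_ne y 0 with rfl | hy
      · simp
      · have := Int.one_le_abs hy
        rw [← sq_abs]
        nlinarith
    exact abs_le.mp (h2.trans h1)
  rw [qf] at hx
  have p1 : 0 ≤ x.1 ^ 2 := sq_nonneg _
  have p2 : 0 ≤ P.l * x.2.1 ^ 2 := by positivity
  have p3 : 0 ≤ P.N * x.2.2.1 ^ 2 := by positivity
  have p4 : 0 ≤ P.N * P.l * x.2.2.2 ^ 2 := by positivity
  refine ⟨key 1 _ le_rfl (by linarith), key P.l _ hl (by linarith), key P.N _ hN (by linarith),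
    key (P.N * P.l) _ hNl (by linarith)⟩

open Classical in
/-- The representation numbers. -/
def rep (n : ℕ) : ℕ := (P.finite_fiber n).toFinset.card

theorem mem_zero : P.Mem 0 := ⟨⟨0, by simp⟩, ⟨0, by simp⟩, ⟨0, by simp⟩⟩

theorem eq_zero_of_qf {x : V} (h : P.qf x = 0) : x = 0 := by
  have hl : (0 : ℤ) < P.l := by exact_mod_cast P.l_pos
  have hN : (0 : ℤ) < P.N := by exact_mod_cast P.N_pos
  rw [qf] at h
  have p1 : 0 ≤ x.1 ^ 2 := sq_nonneg _
  have p2 : 0 ≤ P.l * x.2.1 ^ 2 := by positivity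
  have p3 : 0 ≤ P.N * x.2.2.1 ^ 2 := by positivity
  have p4 : 0 ≤ P.N * P.l * x.2.2.2 ^ 2 := by positivity
  have q1 : x.1 ^ 2 = 0 := by linarith
  have q2 : P.l * x.2.1 ^ 2 = 0 := by linarith
  have q3 : P.N * x.2.2.1 ^ 2 = 0 := by linarith
  have q4 : P.N * P.l * x.2.2.2 ^ 2 = 0 := by linarith
  ext
  · simpa using q1
  · simpa [P.l_pos.ne'] using q2
  · simpa [P.N_pos.ne'] using q3
  · simpa [P.N_pos.ne', P.l_pos.ne'] using q4

theorem rep_zero : P.rep 0 = 1 := by
  classical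
  rw [rep, Finset.card_eq_one]
  refine ⟨0, ?_⟩
  ext x
  simp only [Set.Finite.mem_toFinset, Set.mem_ofPred_eq, Finset.mem_singleton]
  constructor
  · rintro ⟨-, h⟩
    exact P.eq_zero_of_qf (by simpa using h)
  · rintro rfl
    exact ⟨P.mem_zero, by simp [qf]⟩

theorem rep_even {n : ℕ} (hn : 1 ≤ n) : Even (P.rep n) := by
  classical
  have h : ((P.rep n : ℕ) : ZMod 2) = 0 := by
    rw [rep, Finset.card_eq_sum_ones]
    push_cast
    refine Finset.sum_involution (fun x _ ↦ -x) (fun x _ ↦ ?_) (fun x hx _ ↦ ?_) (fun x hx ↦ ?_)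
      (fun x _ ↦ ?_)
    · decide
    · intro h0
      have hx0 : x = 0 := by
        have e : x + x = 0 := by
          nth_rw 1 [← h0]; simp
        ext
        · have := congrArg (fun v : V ↦ v.1) e; simp at this; omega
        · have := congrArg (fun v : V ↦ v.2.1) e; simp at this; omega
        · have := congrArg (fun v : V ↦ v.2.2.1) e; simp at this; omega
        · have := congrArg (fun v : V ↦ v.2.2.2) e; simp at this; omega
      simp only [Set.Finite.mem_toFinset, Set.mem_ofPred_eq] at hx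
      have h1 := hx.2
      rw [hx0] at h1
      have hl : (0 : ℤ) < P.l := by exact_mod_cast P.l_pos
      have h2 : (0 : ℤ) < 4 * P.l * n := by positivity
      simp [qf] at h1
      omega
    · simp only [Set.Finite.mem_toFinset, Set.mem_ofPred_eq] at hx ⊢
      refine ⟨hx.1.neg, ?_⟩
      rw [← hx.2]
      simp [qf]
    · simp
  exact (ZMod.natCast_eq_zero_iff_even).mp h

theorem mul_toNat {x : V} (hx : P.Mem x) : (4 * P.l : ℤ) * ((P.qf x / (4 * P.l)).toNat : ℤ) =
    P.qf x := by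
  have hl : (0 : ℤ) < P.l := by exact_mod_cast P.l_pos
  rw [Int.toNat_of_nonneg (Int.ediv_nonneg (P.qf_nonneg x) (by positivity))]
  exact Int.mul_ediv_cancel' hx.four_l_dvd_qf

open Classical in
theorem hasSum_rep (τ : ℍ) :
    HasSum (fun n : ℕ ↦ (P.rep n : ℂ) • Function.Periodic.qParam 1 τ ^ n) (P.th τ) := by
  have h1 := (P.as_term τ.im_pos).hasSum
  have h2 := h1.tsum_fiberwise (fun x ↦ (P.qf x / (4 * P.l)).toNat)
  have hl : (0 : ℤ) < P.l := by exact_mod_cast P.l_pos
  have hl' : (P.l : ℂ) ≠ 0 := by exact_mod_cast P.l_pos.ne'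
  have h3 : ∀ n : ℕ, (P.rep n : ℂ) • Function.Periodic.qParam 1 τ ^ n =
      ∑' b : (fun x ↦ (P.qf x / (4 * P.l)).toNat) ⁻¹' {n}, P.term τ b := by
    intro n
    rw [tsum_subtype ((fun x ↦ (P.qf x / (4 * P.l)).toNat) ⁻¹' {n}) (P.term τ),
      tsum_eq_sum (s := (P.finite_fiber n).toFinset)]
    · rw [rep, smul_eq_mul, ← nsmul_eq_mul, ← Finset.sum_const]
      refine Finset.sum_congr rfl fun x hx ↦ ?_
      simp only [Set.Finite.mem_toFinset, Set.mem_ofPred_eq] at hx
      obtain ⟨hx1, hx2⟩ := hx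
      have hn : (P.qf x / (4 * P.l)).toNat = n := by
        have := P.mul_toNat hx1
        rw [hx2] at this
        have h4 := mul_left_cancel₀ (by positivity) this
        rw [← hx2] at h4
        exact_mod_cast h4
      rw [Set.indicator_of_mem (by simp [hn]), term, if_pos hx1, Function.Periodic.qParam,
        ← Complex.exp_nat_mul, hx2]
      congr 1
      push_cast
      field_simp
    · intro x hx
      by_cases hx' : x ∈ (fun x ↦ (P.qf x / (4 * P.l)).toNat) ⁻¹' {n}
      · rw [Set.indicator_of_mem hx', term, if_neg]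
        intro hm
        apply hx
        simp only [Set.Finite.mem_toFinset, Set.mem_ofPred_eq]
        refine ⟨hm, ?_⟩
        rw [← P.mul_toNat hm]
        rw [Set.mem_preimage, Set.mem_singleton_iff] at hx'
        rw [hx']
      · exact Set.indicator_of_notMem hx' _
  rw [show (fun n : ℕ ↦ (P.rep n : ℂ) • Function.Periodic.qParam 1 τ ^ n) =
    fun n ↦ ∑' b : (fun x ↦ (P.qf x / (4 * P.l)).toNat) ⁻¹' {n}, P.term τ b from funext h3]
  exact h2

theorem exists_form : ∃ F : ModularForm (CongruenceSubgroup.Gamma0 P.N) 2,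
    ModularFormClass.qCoeff F 0 = 1 / 2 ∧
      ∀ k, 1 ≤ k → ∃ b : ℤ, ModularFormClass.qCoeff F k = b := by
  let F : ModularForm (CongruenceSubgroup.Gamma0 P.N) 2 := (1 / 2 : ℂ) • P.form
  have hc : ∀ n, (P.rep n : ℂ) / 2 = ModularFormClass.qCoeff F n := by
    intro n
    refine ModularFormClass.qExpansion_coeff_unique (c := fun n ↦ (P.rep n : ℂ) / 2)
      (h := 1) one_pos (Γ := (CongruenceSubgroup.Gamma0 P.N : Subgroup (GL (Fin 2) ℝ)))
      (by simp [CongruenceSubgroup.strictPeriods_Gamma0])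
      (f := F) (fun τ ↦ ?_) n
    have h1 := (P.hasSum_rep τ).mul_left (1 / 2 : ℂ)
    have e : F τ = 1 / 2 * P.th τ := rfl
    have e2 : (fun m ↦ ((P.rep m : ℂ) / 2) • Function.Periodic.qParam 1 (τ : ℂ) ^ m) =
        fun m ↦ 1 / 2 * ((P.rep m : ℂ) • Function.Periodic.qParam 1 (τ : ℂ) ^ m) := by
      ext m
      simp only [smul_eq_mul]
      ring
    rw [e, e2]
    exact h1
  refine ⟨F, ?_, fun k hk ↦ ?_⟩
  · rw [← hc 0, P.rep_zero]; norm_num
  · obtain ⟨m, hm⟩ := P.rep_even hk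
    refine ⟨m, ?_⟩
    rw [← hc k, hm]
    push_cast
    ring

end Par

theorem exists_par (N : ℕ) (hN : N.Prime) (h5 : 5 ≤ N) : ∃ P : Par, P.N = N := by
  have : Fact N.Prime := ⟨hN⟩
  have : NeZero N := ⟨hN.ne_zero⟩
  -- residue
  obtain ⟨r, hr0, hr⟩ : ∃ r : ZMod N, r ≠ 0 ∧ (N % 4 = 1 → ¬ IsSquare r) ∧
      (N % 4 = 3 → IsSquare r) := by
    by_cases h : N % 4 = 1
    · obtain ⟨r, hr⟩ := FiniteField.exists_nonsquare (F := ZMod N)
        (by rw [ZMod.ringChar_zmod_n]; omega)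
      refine ⟨r, ?_, fun _ ↦ hr, fun h3 ↦ by omega⟩
      rintro rfl
      exact hr IsSquare.zero
    · exact ⟨1, one_ne_zero, fun h1 ↦ absurd h1 h, fun _ ↦ IsSquare.one⟩
  -- CRT
  obtain ⟨a, ha4, haN⟩ : ∃ a : ℕ, a ≡ 3 [MOD 4] ∧ a ≡ r.val [MOD N] := by
    have : Nat.Coprime 4 N := by
      rw [show 4 = 2 ^ 2 by norm_num]
      apply Nat.Coprime.pow_left
      rw [Nat.coprime_primes Nat.prime_two hN]
      omega
    exact ⟨_, (Nat.chineseRemainder this 3 r.val).2⟩
  have : NeZero (4 * N) := ⟨by have := hN.pos; omega⟩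
  have haN' : (a : ZMod N) = r := by
    have := (ZMod.natCast_eq_natCast_iff _ _ _).mpr haN
    rw [this, ZMod.natCast_zmod_val]
  have hau : IsUnit (a : ZMod (4 * N)) := by
    rw [ZMod.isUnit_iff_coprime]
    apply Nat.Coprime.mul_right
    · have h1 : a % 4 = 3 := ha4
      rw [show 4 = 2 ^ 2 by norm_num]
      apply Nat.Coprime.pow_right
      rw [Nat.coprime_comm, Nat.Prime.coprime_iff_not_dvd Nat.prime_two]
      omega
    · rw [Nat.coprime_comm, Nat.Prime.coprime_iff_not_dvd hN]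
      intro h
      exact hr0 (by rw [← haN']; exact (ZMod.natCast_eq_zero_iff _ _).mpr h)
  obtain ⟨l, hlN, hl, hla⟩ := Nat.forall_exists_prime_gt_and_eq_mod hau N
  have : Fact l.Prime := ⟨hl⟩
  have h1 : l ≡ a [MOD 4 * N] := (ZMod.natCast_eq_natCast_iff _ _ _).mp hla
  have hl4 : l % 4 = 3 := by
    have : l ≡ 3 [MOD 4] := (h1.of_mul_right N).trans ha4
    exact this
  have hlr : (l : ZMod N) = r := by
    rw [← haN']
    exact (ZMod.natCast_eq_natCast_iff _ _ _).mpr (h1.of_mul_left 4)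
  have hcop : Nat.Coprime N l := (Nat.coprime_primes hN hl).mpr (by omega)
  -- N is not a square mod l
  have hNl : ¬ IsSquare (N : ZMod l) := by
    have hodd : N % 4 = 1 ∨ N % 4 = 3 := by
      rcases hN.eq_two_or_odd with h | h <;> omega
    rcases hodd with h | h
    · have := ZMod.exists_sq_eq_prime_iff_of_mod_four_eq_one (p := N) (q := l) h (by omega)
      rw [← this, hlr]
      exact hr.1 h
    · have := ZMod.exists_sq_eq_prime_iff_of_mod_four_eq_three (p := N) (q := l) h hl4 (by omega)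
      rw [← this, hlr]
      exact hr.2 h
  -- so -N is a square mod l
  have hneg : ¬ IsSquare (-1 : ZMod l) := by
    rw [ZMod.exists_sq_eq_neg_one_iff]
    omega
  have hl2 : ringChar (ZMod l) ≠ 2 := by
    rw [ZMod.ringChar_zmod_n]; omega
  have hNl0 : (N : ZMod l) ≠ 0 := fun h ↦ hNl (by rw [h]; exact IsSquare.zero)
  have hsq : IsSquare (-(N : ZMod l)) := by
    have h2 := (quadraticChar_neg_one_iff_not_isSquare (F := ZMod l)).mpr hNl
    have h3 := (quadraticChar_neg_one_iff_not_isSquare (F := ZMod l)).mpr hneg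
    rw [← quadraticChar_one_iff_isSquare (neg_ne_zero.mpr hNl0), ← neg_one_mul, map_mul, h2, h3]
    norm_num
  obtain ⟨t, ht⟩ := hsq
  have ht0 : t ≠ 0 := by
    rintro rfl
    exact hNl0 (by simpa using ht)
  -- s = t⁻¹ mod l
  set s0 : ℤ := ((t⁻¹ : ZMod l).val : ℤ) with hs0
  have hs0' : (s0 : ZMod l) = t⁻¹ := by rw [hs0]; push_cast; exact ZMod.natCast_zmod_val _
  obtain ⟨s, hs, hs2⟩ : ∃ s : ℤ, (s : ZMod l) = t⁻¹ ∧ (2 : ℤ) ∣ s := by
    by_cases h : (2 : ℤ) ∣ s0
    · exact ⟨s0, hs0', h⟩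
    · refine ⟨s0 + l, ?_, by omega⟩
      push_cast
      rw [hs0', CharP.cast_eq_zero, add_zero]
  refine ⟨⟨N, l, s, hN, h5, hl4, hcop, hs2, ?_⟩, rfl⟩
  apply (ZMod.intCast_zmod_eq_zero_iff_dvd _ _).mp
  push_cast
  rw [hs]
  have : (N : ZMod l) = - (t * t) := by rw [← ht, neg_neg]
  rw [this]
  field_simp
  ring

/-- Existence of an integral form with constant term `1/2`. -/
theorem exists_theta (N : ℕ) (hN : N.Prime) (h5 : 5 ≤ N) :
    ∃ F : ModularForm (CongruenceSubgroup.Gamma0 N) 2, ModularFormClass.qCoeff F 0 = 1 / 2 ∧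
      ∀ k, 1 ≤ k → ∃ b : ℤ, ModularFormClass.qCoeff F k = b := by
  obtain ⟨P, rfl⟩ := exists_par N hN h5
  exact P.exists_form

end Fermat.Agent.H16.Theta
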